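import Fermat.Agent.Modular.ModularPolynomial

/-!
# The shape of the modular polynomial of prime level

For a prime `p` the polynomial `Φ(X, Y)` vanishing at `(j, j(p ·))` is
`Y ^ (p+1) + u X ^ (p+1) - X ^ p Y ^ p` plus monomials of smaller weight, `u = ± 1`.  The
orders of the conjugates at infinity give this without any use of the Kronecker congruence.
-/

set_option autoImplicit false

noncomputable section

open Polynomial UpperHalfPlane CongruenceSubgroup ModularCurve
open Fermat.Agent.Modular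
open scoped MatrixGroups

namespace Fermat.Agent.Mazur.Moduli

section Order

variable {R : Type*} [CommRing R]

/-- All coefficients in degree below `m` vanish. -/
def LOrd (m : ℤ) (x : LaurentSeries R) : Prop := ∀ n < m, x.coeff n = 0

variable {m m' : ℤ} {x y : LaurentSeries R}

lemma LOrd.mono (hx : LOrd m x) (h : m' ≤ m) : LOrd m' x := fun n hn => hx n (hn.trans_le h)

lemma LOrd.zero (m : ℤ) : LOrd m (0 : LaurentSeries R) := fun _ _ => rfl

lemma LOrd.one : LOrd 0 (1 : LaurentSeries R) := fun n hn => by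
  rw [HahnSeries.coeff_one, if_neg hn.ne]

lemma LOrd.neg (hx : LOrd m x) : LOrd m (-x) := fun n hn => by simp [hx n hn]

lemma LOrd.sub (hx : LOrd m x) (hy : LOrd m y) : LOrd m (x - y) := fun n hn => by
  simp [hx n hn, hy n hn]

lemma LOrd.coeff_mul_of_le (hx : LOrd m x) (hy : LOrd m' y) {n : ℤ} (hn : n ≤ m + m') :
    (x * y).coeff n = if n = m + m' then x.coeff m * y.coeff m' else 0 := by
  rw [HahnSeries.coeff_mul]
  have hsub : ∀ ij ∈ Finset.antidiagonal x.isPWO_support y.isPWO_support n,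
      ij = (m, m') ∧ n = m + m' := by
    intro ij hij
    obtain ⟨h1, h2, h3⟩ := Finset.mem_antidiagonal.1 hij
    have h1' : m ≤ ij.1 := not_lt.1 fun h => h1 (hx _ h)
    have h2' : m' ≤ ij.2 := not_lt.1 fun h => h2 (hy _ h)
    exact ⟨Prod.ext (by omega) (by omega), by omega⟩
  split_ifs with he
  · rw [Finset.sum_eq_single (m, m') (fun ij hij hne => absurd (hsub ij hij).1 hne)]
    intro hmem
    by_contra hne
    exact hmem (Finset.mem_antidiagonal.2
      ⟨left_ne_zero_of_mul hne, right_ne_zero_of_mul hne, he.symm⟩)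
  · exact Finset.sum_eq_zero fun ij hij => absurd (hsub ij hij).2 he

lemma LOrd.mul (hx : LOrd m x) (hy : LOrd m' y) : LOrd (m + m') (x * y) := fun n hn => by
  rw [hx.coeff_mul_of_le hy hn.le, if_neg hn.ne]

lemma LOrd.coeff_mul (hx : LOrd m x) (hy : LOrd m' y) :
    (x * y).coeff (m + m') = x.coeff m * y.coeff m' := by
  rw [hx.coeff_mul_of_le hy le_rfl, if_pos rfl]

/-- Coefficients of a product of monic linear factors whose roots have order at least `-1`. -/
lemma lord_prod {ι : Type*} (s : Finset ι) (r : ι → LaurentSeries R)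
    (hr : ∀ i ∈ s, LOrd (-1) (r i)) :
    (∀ k, LOrd (-((s.card - k : ℕ) : ℤ)) ((∏ i ∈ s, (X - C (r i))).coeff k)) ∧
      ((∏ i ∈ s, (X - C (r i))).coeff 0).coeff (-(s.card : ℤ)) =
        ∏ i ∈ s, (-(r i).coeff (-1)) := by
  classical
  induction s using Finset.induction with
  | empty =>
    refine ⟨fun k => ?_, by simp⟩
    rcases k with _ | k
    · simpa using LOrd.one
    · simpa [coeff_one] using LOrd.zero 0
  | insert a s ha ih =>
    obtain ⟨h1, h2⟩ := ih fun i hi => hr i (Finset.mem_insert_of_mem hi)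
    have hra := hr a (Finset.mem_insert_self a s)
    rw [Finset.prod_insert ha, Finset.prod_insert ha, Finset.card_insert_of_notMem ha]
    set G := ∏ i ∈ s, (X - C (r i))
    constructor
    · intro k
      rcases k with _ | k
      · rw [mul_coeff_zero, coeff_sub, coeff_X_zero, coeff_C_zero, zero_sub]
        exact (hra.neg.mul (h1 0)).mono (by push_cast; omega)
      · rw [sub_mul, coeff_sub, coeff_X_mul, coeff_C_mul]
        refine LOrd.sub ((h1 k).mono (by omega)) ?_
        rcases lt_or_ge k s.card with hk | hk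
        · exact (hra.mul (h1 (k + 1))).mono (by omega)
        · have : G.coeff (k + 1) = 0 := by
            refine coeff_eq_zero_of_natDegree_lt (lt_of_le_of_lt ?_ (Nat.lt_succ_of_le hk))
            refine (natDegree_prod_le _ _).trans ((Finset.sum_le_card_nsmul _ _ 1 fun i _ =>
              natDegree_X_sub_C_le _).trans (by simp))
          rw [this, mul_zero]
          exact LOrd.zero _
    · rw [mul_coeff_zero, coeff_sub, coeff_X_zero, coeff_C_zero, zero_sub,
        show -((s.card + 1 : ℕ) : ℤ) = -1 + -((s.card - 0 : ℕ) : ℤ) by push_cast; omega,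
        hra.neg.coeff_mul (h1 0), HahnSeries.coeff_neg, show -((s.card - 0 : ℕ) : ℤ) = -(s.card : ℤ)
          by simp, h2]

end Order

lemma dedekindPsi_of_prime {p : ℕ} (hp : p.Prime) : dedekindPsi p = p + 1 := by
  rw [dedekindPsi, hp.divisors, Finset.filter_true_of_mem, Finset.sum_pair hp.one_lt.ne,
    Nat.div_one, Nat.div_self hp.pos]
  intro d hd
  rcases Finset.mem_insert.1 hd with rfl | hd
  · exact squarefree_one
  · exact (Finset.mem_singleton.1 hd) ▸ hp.prime.squarefree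

/-- Functions with an expansion of period `h`. -/
def expSubring (h : ℝ) : Subring (ℍ → ℂ) where
  carrier := {f | ∃ x, HasQExp h f x}
  one_mem' := ⟨1, HasQExp.one h⟩
  zero_mem' := ⟨0, HasQExp.zero h⟩
  add_mem' := by rintro f g ⟨x, hf⟩ ⟨y, hg⟩; exact ⟨x + y, hf.add hg⟩
  neg_mem' := by rintro f ⟨x, hf⟩; exact ⟨-x, hf.neg⟩
  mul_mem' := by rintro f g ⟨x, hf⟩ ⟨y, hg⟩; exact ⟨x * y, hf.mul hg⟩

/-- The expansion, as a ring homomorphism. -/
def expHom {h : ℝ} (hh : 0 < h) : expSubring h →+* LaurentSeries ℂ where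
  toFun f := f.2.choose
  map_one' := HasQExp.unique (1 : expSubring h).2.choose_spec (HasQExp.one h) hh
  map_zero' := HasQExp.unique (0 : expSubring h).2.choose_spec (HasQExp.zero h) hh
  map_add' f g := HasQExp.unique (f + g).2.choose_spec (f.2.choose_spec.add g.2.choose_spec) hh
  map_mul' f g := HasQExp.unique (f * g).2.choose_spec (f.2.choose_spec.mul g.2.choose_spec) hh

lemma expHom_eq {h : ℝ} (hh : 0 < h) (f : expSubring h) {x : LaurentSeries ℂ}
    (hx : HasQExp h (f : ℍ → ℂ) x) : expHom hh f = x :=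
  HasQExp.unique f.2.choose_spec hx hh

section Shape

variable {p : ℕ} [hp : Fact p.Prime]

lemma exists_conj_series (q : SL(2, ℤ) ⧸ Gamma0 p) (hq : q ≠ QuotientGroup.mk 1) :
    ∃ x : LaurentSeries ℂ, HasQExp (p : ℝ) (conjAt (jLevel p) q) x ∧ LOrd (-1) x ∧
      (x.coeff (-1)) ^ p = 1 := by
  induction q using QuotientGroup.induction_on with
  | H g =>
    obtain ⟨⟨d, b⟩, ha, hd, hx, -, hxj⟩ := exists_affine p g
    obtain ⟨hdp, hb, -⟩ := mem_primTriples.mp hx
    have hconj : ∀ z, conjAt (jLevel p) (QuotientGroup.mk g : SL(2, ℤ) ⧸ Gamma0 p) z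
        = kleinJ (affineH (p / d) (b : ℤ) d z) := fun z => by
      rw [(isModFun_jLevel p dvd_rfl).conjAt_mk, jLevel, hxj]
    rcases hp.out.eq_one_or_self_of_dvd d hdp with rfl | rfl
    · exfalso
      apply hq
      refine conjAt_jLevel_injective p (funext fun z => ?_)
      dsimp only
      rw [hconj, (isModFun_jLevel p dvd_rfl).conjAt_one, jLevel]
      obtain rfl : b = 0 := by omega
      congr 1
      ext1
      simp
    · haveI := hd
      haveI := ha
      have h1 := hasQExp_kleinJ.comp_affineH (d / d) (b : ℤ) d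
      refine ⟨_, h1.congr fun z => (hconj z).symm, ?_, ?_⟩
      · intro n hn
        have h11 : d / d = 1 := Nat.div_self hp.out.pos
        have : NeZero (1 : ℕ) := inferInstance
        rw [show n = ((d / d : ℕ) : ℤ) * n by rw [h11]; simp, qExpand_coeff_mul,
          twistSeries_coeff, coeff_jqModC_of_lt ℂ hn, mul_zero]
      · have h11 : d / d = 1 := Nat.div_self hp.out.pos
        rw [show (-1 : ℤ) = ((d / d : ℕ) : ℤ) * (-1) by rw [h11]; simp, qExpand_coeff_mul,
          twistSeries_coeff, coeff_jqModC_neg_one, mul_one, Units.val_zpow_eq_zpow_val,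
          Units.val_mk0, zpow_neg, zpow_one, inv_pow, inv_eq_one, Function.Periodic.qParam,
          ← Complex.exp_nat_mul, Complex.exp_eq_one_iff]
        refine ⟨b, ?_⟩
        have : (d : ℂ) ≠ 0 := Nat.cast_ne_zero.mpr hp.out.ne_zero
        push_cast
        field_simp

lemma lord_jqC_p : LOrd (-(p : ℤ)) (qExpand ℂ p (jqModC ℂ)) ∧
    (qExpand ℂ p (jqModC ℂ)).coeff (-(p : ℤ)) = 1 := by
  constructor
  · intro n hn
    by_cases hd : (p : ℤ) ∣ n
    · obtain ⟨m, rfl⟩ := hd
      rw [qExpand_coeff_mul]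
      have : m < -1 := by
        by_contra h
        push Not at h
        nlinarith [hp.out.pos]
      exact coeff_jqModC_of_lt ℂ this
    · exact qExpand_coeff_of_not_dvd _ _ hd
  · rw [show (-(p : ℤ)) = (p : ℤ) * (-1) by ring, qExpand_coeff_mul, coeff_jqModC_neg_one]

lemma lord_jpC_p : LOrd (-((p : ℤ) * p)) (qExpand ℂ p (qExpand ℂ p (jqModC ℂ))) ∧
    (qExpand ℂ p (qExpand ℂ p (jqModC ℂ))).coeff (-((p : ℤ) * p)) = 1 := by
  obtain ⟨h1, h2⟩ := lord_jqC_p (p := p)
  constructor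
  · intro n hn
    by_cases hd : (p : ℤ) ∣ n
    · obtain ⟨m, rfl⟩ := hd
      rw [qExpand_coeff_mul]
      exact h1 m (by nlinarith [hp.out.pos])
    · exact qExpand_coeff_of_not_dvd _ _ hd
  · rw [show -((p : ℤ) * p) = (p : ℤ) * (-(p : ℤ)) by ring, qExpand_coeff_mul, h2]

/-- The orders at infinity of the coefficients of `Φ`, read in `exp (2πiz/p)`. -/
theorem coeff_series {Φ : Polynomial (Polynomial ℤ)}
    (hΦ : letI := cosetFintype p
      ∀ z, (Φ.map (mapRingHom (Int.castRingHom ℂ))).map (evalRingHom (kleinJ z))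
        = ∏ q : SL(2, ℤ) ⧸ Gamma0 p, (X - C (conjAt (jLevel p) q z))) :
    ∃ G : Polynomial (LaurentSeries ℂ), G.natDegree ≤ p ∧ G.coeff p = 1 ∧
      (∀ k, LOrd (-((p - k : ℕ) : ℤ)) (G.coeff k)) ∧
      ((G.coeff 0).coeff (-(p : ℤ))) ^ p = (-1) ^ (p * p) ∧
      ∀ k, qExpand ℂ p (aeval (jqModC ℂ) ((Φ.coeff k).map (Int.castRingHom ℂ)))
        = ((X - C (qExpand ℂ p (qExpand ℂ p (jqModC ℂ)))) * G).coeff k := by
  classical
  letI := cosetFintype p
  have hp0 : (0 : ℝ) < (p : ℝ) := by exact_mod_cast hp.out.pos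
  set q0 : SL(2, ℤ) ⧸ Gamma0 p := QuotientGroup.mk 1
  have hj : HasQExp (p : ℝ) (jLevel p) (qExpand ℂ p (qExpand ℂ p (jqModC ℂ))) := by
    have h := (hasQExp_kleinJ.comp_mulH p).dilate_period one_ne_zero p
    rw [one_mul] at h
    exact h
  have hmem : ∀ q : SL(2, ℤ) ⧸ Gamma0 p, conjAt (jLevel p) q ∈ expSubring (p : ℝ) := by
    intro q
    by_cases hq : q = q0
    · subst hq
      exact ⟨_, hj.congr fun z => ((isModFun_jLevel p dvd_rfl).conjAt_one z).symm⟩
    · obtain ⟨x, hx, -⟩ := exists_conj_series q hq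
      exact ⟨x, hx⟩
  let r : SL(2, ℤ) ⧸ Gamma0 p → LaurentSeries ℂ := fun q => expHom hp0 ⟨_, hmem q⟩
  have hr : ∀ q, q ≠ q0 → LOrd (-1) (r q) ∧ (r q).coeff (-1) ^ p = 1 := by
    intro q hq
    obtain ⟨x, hx, h1, h2⟩ := exists_conj_series q hq
    rw [show r q = x from expHom_eq hp0 _ hx]
    exact ⟨h1, h2⟩
  have hr0 : r q0 = qExpand ℂ p (qExpand ℂ p (jqModC ℂ)) :=
    expHom_eq hp0 _ (hj.congr fun z => ((isModFun_jLevel p dvd_rfl).conjAt_one z).symm)
  set s := (Finset.univ : Finset (SL(2, ℤ) ⧸ Gamma0 p)).erase q0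
  have hcard : s.card = p := by
    rw [Finset.card_erase_of_mem (Finset.mem_univ _), Finset.card_univ, card_cosets,
      dedekindPsi_of_prime hp.out]
    simp
  obtain ⟨h1, h2⟩ := lord_prod s r fun i hi => (hr i (Finset.ne_of_mem_erase hi)).1
  set G := ∏ i ∈ s, (X - C (r i))
  have hGm : G.Monic := monic_prod_of_monic _ _ fun i _ => monic_X_sub_C _
  have hGd : G.natDegree = p := by
    rw [natDegree_prod_of_monic _ _ fun i _ => monic_X_sub_C _]
    simp [hcard]
  refine ⟨G, hGd.le, hGd ▸ hGm.coeff_natDegree, fun k => hcard ▸ h1 k, ?_, fun k => ?_⟩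
  · rw [← hcard, h2, ← Finset.prod_pow, Finset.prod_congr rfl fun i hi => show
        (-(r i).coeff (-1)) ^ s.card = (-1) ^ p by
      rw [neg_pow, hcard, (hr i (Finset.ne_of_mem_erase hi)).2, mul_one], Finset.prod_const, hcard,
      ← pow_mul]
  · let P : Polynomial (expSubring (p : ℝ)) :=
      ∏ q : SL(2, ℤ) ⧸ Gamma0 p, (X - C ⟨_, hmem q⟩)
    have hP : P.map (expHom hp0) = (X - C (qExpand ℂ p (qExpand ℂ p (jqModC ℂ)))) * G := by
      rw [← hr0, Finset.mul_prod_erase (Finset.univ : Finset (SL(2, ℤ) ⧸ Gamma0 p))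
        (fun i => X - C (r i)) (Finset.mem_univ q0)]
      simp [P, Polynomial.map_prod, r]
    rw [← hP, Polynomial.coeff_map]
    symm
    refine expHom_eq hp0 _ ?_
    have hfun : (fun z => ((Φ.coeff k).map (Int.castRingHom ℂ)).eval (kleinJ z))
        = ((P.coeff k : expSubring (p : ℝ)) : ℍ → ℂ) := by
      funext z
      have h1 := congrArg (fun Q => Q.coeff k) (hΦ z)
      simp only [coeff_map, coe_evalRingHom, coe_mapRingHom] at h1
      have h2 : P.map ((Pi.evalRingHom (fun _ : ℍ => ℂ) z).comp (expSubring (p : ℝ)).subtype)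
          = ∏ q : SL(2, ℤ) ⧸ Gamma0 p, (X - C (conjAt (jLevel p) q z)) := by
        simp [P, Polynomial.map_prod]
      rw [h1, ← h2, Polynomial.coeff_map]
      rfl
    rw [← hfun]
    have h := (hasQExp_eval_kleinJ ((Φ.coeff k).map (Int.castRingHom ℂ))).dilate_period
      one_ne_zero p
    rwa [one_mul] at h

lemma coeff_aeval_jqModC_top (P : Polynomial ℂ) {d : ℕ} (hd : P.natDegree ≤ d) :
    (aeval (jqModC ℂ) P).coeff (-(d : ℤ)) = P.coeff d := by
  rw [aeval_eq_sum_range' (Nat.lt_succ_of_le hd), HahnSeries.coeff_sum,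
    Finset.sum_eq_single d]
  · rw [Algebra.smul_def, algebraMap_laurentSeries_eq_single, HahnSeries.coeff_single_zero_mul,
      coeff_jqModC_pow_self, mul_one]
  · intro i hi hne
    rw [Algebra.smul_def, algebraMap_laurentSeries_eq_single, HahnSeries.coeff_single_zero_mul,
      coeff_jqModC_pow_of_lt ℂ (b := i) (by
        have := Finset.mem_range.1 hi
        omega), mul_zero]
  · intro h
    exact absurd (Finset.mem_range.2 (Nat.lt_succ_self d)) h

lemma qExpand_aeval_top (P : Polynomial ℤ) {d : ℕ} (hd : P.natDegree ≤ d) :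
    (qExpand ℂ p (aeval (jqModC ℂ) (P.map (Int.castRingHom ℂ)))).coeff (-((p : ℤ) * d))
      = (P.coeff d : ℂ) := by
  rw [show -((p : ℤ) * d) = (p : ℤ) * (-(d : ℤ)) by ring, qExpand_coeff_mul,
    coeff_aeval_jqModC_top _ (natDegree_map_le.trans hd), coeff_map, eq_intCast]

lemma natDegree_le_of_lord (P : Polynomial ℤ) {m : ℕ} {N : ℤ}
    (h : LOrd (-N) (qExpand ℂ p (aeval (jqModC ℂ) (P.map (Int.castRingHom ℂ)))))
    (hN : N < (p : ℤ) * (m + 1)) : P.natDegree ≤ m := by
  by_contra hlt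
  have hlt' : m + 1 ≤ P.natDegree := by omega
  have h1 := qExpand_aeval_top (p := p) P (d := P.natDegree) le_rfl
  rw [h _ (by
    have : (p : ℤ) * (m + 1) ≤ (p : ℤ) * P.natDegree :=
      mul_le_mul_of_nonneg_left (by exact_mod_cast hlt') (Int.natCast_nonneg p)
    omega)] at h1
  have h0 : P.leadingCoeff = 0 := by exact_mod_cast h1.symm
  rw [leadingCoeff_eq_zero.1 h0, natDegree_zero] at hlt
  exact hlt (Nat.zero_le m)

variable (p) in
/-- What is used of the modular polynomial. -/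
structure IsModularShape (Φ : Polynomial (Polynomial ℤ)) : Prop where
  monic : Φ.Monic
  natDegree_eq : Φ.natDegree = p + 1
  eval_series : Φ.eval₂ evalAtJ (jqN p) = 0
  eval_kleinJ : ∀ τ : ℍ,
    (Φ.map (mapRingHom (Int.castRingHom ℂ))).evalEval (kleinJ τ) (kleinJ (mulH p τ)) = 0
  natDegree_coeff_zero : (Φ.coeff 0).natDegree ≤ p + 1
  sq_coeff_zero : ((Φ.coeff 0).coeff (p + 1)) ^ 2 = 1
  natDegree_coeff_le : ∀ k, 1 ≤ k → k ≤ p → (Φ.coeff k).natDegree ≤ p
  coeff_self : (Φ.coeff p).coeff p = -1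

theorem exists_isModularShape : ∃ Φ, IsModularShape p Φ := by
  classical
  obtain ⟨Φ, hm, hd, hfac, hser⟩ := exists_modularPolynomial p
  rw [dedekindPsi_of_prime hp.out] at hd
  obtain ⟨G, hGd, hGp, hGl, hG0, hco⟩ := coeff_series hfac
  obtain ⟨hjl, hjc⟩ := lord_jpC_p (p := p)
  set J := qExpand ℂ p (qExpand ℂ p (jqModC ℂ))
  have hp2 := hp.out.two_le
  have hc0 : ((X - C J) * G).coeff 0 = -J * G.coeff 0 := by
    rw [mul_coeff_zero, coeff_sub, coeff_X_zero, coeff_C_zero, zero_sub]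
  have hck : ∀ k, ((X - C J) * G).coeff (k + 1) = G.coeff k - J * G.coeff (k + 1) := fun k => by
    rw [sub_mul, coeff_sub, coeff_X_mul, coeff_C_mul]
  have hl0 : LOrd (-((p : ℤ) * p + p)) (((X - C J) * G).coeff 0) := by
    rw [hc0]
    exact (hjl.neg.mul (hGl 0)).mono (by simp)
  have hd0 : (Φ.coeff 0).natDegree ≤ p + 1 := by
    refine natDegree_le_of_lord (p := p) _ (N := (p : ℤ) * p + p) (by rw [hco]; exact hl0) ?_
    push_cast
    nlinarith
  have hlk : ∀ k, 1 ≤ k → k ≤ p →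
      LOrd (-((p : ℤ) * p + p - 1)) (((X - C J) * G).coeff k) := by
    intro k hk1 hkp
    obtain ⟨k, rfl⟩ : ∃ l, k = l + 1 := ⟨k - 1, by omega⟩
    rw [hck]
    refine LOrd.sub ((hGl k).mono ?_) ((hjl.mul (hGl (k + 1))).mono ?_)
    · have : (4 : ℤ) ≤ (p : ℤ) * p := by exact_mod_cast Nat.mul_le_mul hp2 hp2
      omega
    · omega
  refine ⟨Φ, hm, hd, hser, fun τ => ?_, hd0, ?_, fun k hk1 hkp => ?_, ?_⟩
  · letI := cosetFintype p
    rw [← map_evalRingHom_eval, hfac, Polynomial.eval_prod]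
    exact Finset.prod_eq_zero
      (i := (QuotientGroup.mk 1 : SL(2, ℤ) ⧸ Gamma0 p)) (Finset.mem_univ _)
      (by simp [(isModFun_jLevel p dvd_rfl).conjAt_one, jLevel])
  · have h1 := qExpand_aeval_top (p := p) (Φ.coeff 0) hd0
    rw [hco, hc0, show -((p : ℤ) * ((p + 1 : ℕ) : ℤ)) = -((p : ℤ) * p) + -((p - 0 : ℕ) : ℤ) by
      rw [Nat.sub_zero]; push_cast; ring, hjl.neg.coeff_mul (hGl 0), HahnSeries.coeff_neg, hjc, neg_one_mul,
      show -((p - 0 : ℕ) : ℤ) = -(p : ℤ) by simp] at h1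
    have h2 : ((Φ.coeff 0).coeff (p + 1) : ℂ) ^ p = (-1) ^ p * (-1) ^ (p * p) := by
      rw [← h1, neg_pow, hG0]
    have h3 : (Φ.coeff 0).coeff (p + 1) ^ p = (-1) ^ p * (-1) ^ (p * p) := by exact_mod_cast h2
    have h4 : ((Φ.coeff 0).coeff (p + 1)).natAbs = 1 := by
      have := congrArg Int.natAbs h3
      simp only [Int.natAbs_pow, Int.natAbs_mul, Int.natAbs_neg, Int.natAbs_one, one_pow,
        mul_one] at this
      exact (pow_eq_one_iff.1 this).resolve_right hp.out.ne_zero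
    rcases Int.natAbs_eq_iff.1 h4 with e | e <;> rw [e] <;> norm_num
  · refine natDegree_le_of_lord (p := p) _ (N := (p : ℤ) * p + p - 1)
      (by rw [hco]; exact hlk k hk1 hkp) ?_
    linarith
  · have hdp : (Φ.coeff p).natDegree ≤ p :=
      natDegree_le_of_lord (p := p) _ (N := (p : ℤ) * p + p - 1)
        (by rw [hco]; exact hlk p (by omega) le_rfl) (by linarith)
    have h1 := qExpand_aeval_top (p := p) (Φ.coeff p) hdp
    obtain ⟨k, hk⟩ : ∃ l, p = l + 1 := ⟨p - 1, by omega⟩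
    have h5 : ((X - C J) * G).coeff p = G.coeff k - J := by
      conv_lhs => rw [hk, hck, ← hk, hGp, mul_one]
    rw [hco, h5, HahnSeries.coeff_sub, hjc, (hGl k) _ (by
      have : (4 : ℤ) ≤ (p : ℤ) * p := by exact_mod_cast Nat.mul_le_mul hp2 hp2
      omega), zero_sub] at h1
    exact_mod_cast h1.symm

end Shape

section Padic

variable (ℓ : ℕ) [hl : Fact ℓ.Prime]

lemma padicNorm_map_eval_le (P : Polynomial ℤ) {m : ℕ} (hm : P.natDegree ≤ m) {x : ℚ}
    (hx : 1 ≤ padicNorm ℓ x) :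
    padicNorm ℓ ((P.map (Int.castRingHom ℚ)).eval x) ≤ padicNorm ℓ x ^ m := by
  rw [eval_eq_sum_range' (Nat.lt_succ_of_le (natDegree_map_le.trans hm))]
  refine padicNorm.sum_le' (fun i hi => ?_) (by positivity)
  rw [padicNorm.mul, coeff_map, eq_intCast, IsAbsoluteValue.abv_pow (padicNorm ℓ)]
  calc padicNorm ℓ (P.coeff i : ℚ) * padicNorm ℓ x ^ i ≤ 1 * padicNorm ℓ x ^ m := by
        gcongr
        · exact padicNorm.of_int _
        · exact Nat.le_of_lt_succ (Finset.mem_range.1 hi)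
    _ = padicNorm ℓ x ^ m := one_mul _

lemma padicNorm_map_eval_sub_top_le (P : Polynomial ℤ) {m : ℕ} (hm : P.natDegree ≤ m + 1) {x : ℚ}
    (hx : 1 ≤ padicNorm ℓ x) :
    padicNorm ℓ ((P.map (Int.castRingHom ℚ)).eval x - (P.coeff (m + 1) : ℚ) * x ^ (m + 1))
      ≤ padicNorm ℓ x ^ m := by
  rw [eval_eq_sum_range' (Nat.lt_succ_of_le (natDegree_map_le.trans hm)), Finset.sum_range_succ,
    coeff_map, eq_intCast, add_sub_cancel_right]
  refine padicNorm.sum_le' (fun i hi => ?_) (by positivity)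
  rw [padicNorm.mul, coeff_map, eq_intCast, IsAbsoluteValue.abv_pow (padicNorm ℓ)]
  calc padicNorm ℓ (P.coeff i : ℚ) * padicNorm ℓ x ^ i ≤ 1 * padicNorm ℓ x ^ m := by
        gcongr
        · exact padicNorm.of_int _
        · exact Nat.le_of_lt_succ (Finset.mem_range.1 hi)
    _ = padicNorm ℓ x ^ m := one_mul _

/-- A term strictly dominated by the others cannot cancel them. -/
lemma padicNorm_add_eq_left {x y : ℚ} (h : padicNorm ℓ y < padicNorm ℓ x) :
    padicNorm ℓ (x + y) = padicNorm ℓ x := by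
  rw [padicNorm.add_eq_max_of_ne h.ne', max_eq_left h.le]

variable {p : ℕ} [hp : Fact p.Prime] {Φ : Polynomial (Polynomial ℤ)}

/-- A rational zero `(a, b)` of `Φ` with `a` not integral at `ℓ`. -/
theorem IsModularShape.padic_dichotomy (hΦ : IsModularShape p Φ) {a b : ℚ}
    (ha : 1 < padicNorm ℓ a)
    (h0 : (Φ.map (mapRingHom (Int.castRingHom ℚ))).evalEval a b = 0) :
    1 < padicNorm ℓ b ∧
      ((padicNorm ℓ b = padicNorm ℓ a ^ p ∧
          ((Φ.map (mapRingHom (Int.castRingHom ℚ))).derivative).evalEval a b ≠ 0) ∨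
        padicNorm ℓ a = padicNorm ℓ b ^ p) := by
  set A := padicNorm ℓ a with hA
  set B := padicNorm ℓ b with hB
  have hp1 := hp.out.one_lt
  have habs : ∀ (x : ℚ) (n : ℕ), padicNorm ℓ (x ^ n) = padicNorm ℓ x ^ n :=
    IsAbsoluteValue.abv_pow (padicNorm ℓ)
  set c : ℕ → ℚ := fun k => ((Φ.coeff k).map (Int.castRingHom ℚ)).eval a with hc
  have hctop : c (p + 1) = 1 := by
    simp [hc, show Φ.coeff (p + 1) = 1 from hΦ.natDegree_eq ▸ hΦ.monic.coeff_natDegree]
  have hcle : ∀ k, 1 ≤ k → k ≤ p → padicNorm ℓ (c k) ≤ A ^ p := fun k h1 h2 =>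
    padicNorm_map_eval_le ℓ _ (hΦ.natDegree_coeff_le k h1 h2) ha.le
  set R0 : ℚ := c 0 - ((Φ.coeff 0).coeff (p + 1) : ℚ) * a ^ (p + 1) with hR0
  have hR0le : padicNorm ℓ R0 ≤ A ^ p :=
    padicNorm_map_eval_sub_top_le ℓ _ hΦ.natDegree_coeff_zero ha.le
  set Rp : ℚ := c p + a ^ p with hRp
  have hRple : padicNorm ℓ Rp ≤ A ^ (p - 1) := by
    obtain ⟨m, hm⟩ : ∃ m, p = m + 1 := ⟨p - 1, by omega⟩
    have h := padicNorm_map_eval_sub_top_le ℓ (Φ.coeff p) (m := m)
      (hm ▸ hΦ.natDegree_coeff_le p hp1.le le_rfl) ha.le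
    rw [← hm, hΦ.coeff_self] at h
    simpa [hRp, hc, show p - 1 = m by omega] using h
  have hu : padicNorm ℓ (((Φ.coeff 0).coeff (p + 1) : ℚ) * a ^ (p + 1)) = A ^ (p + 1) := by
    rw [padicNorm.mul, habs]
    rcases mul_self_eq_one_iff.1 ((sq _).symm.trans hΦ.sq_coeff_zero) with e | e <;>
      simp [e, padicNorm.neg, hA]
  have hnd : (Φ.map (mapRingHom (Int.castRingHom ℚ))).natDegree < p + 2 :=
    natDegree_map_le.trans_lt (by rw [hΦ.natDegree_eq]; omega)
  have hsum : b ^ (p + 1) + ((Φ.coeff 0).coeff (p + 1) : ℚ) * a ^ (p + 1) + -(a ^ p * b ^ p)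
      + (R0 + Rp * b ^ p + ∑ k ∈ Finset.Ico 1 p, c k * b ^ k) = 0 := by
    have h := h0
    rw [evalEval, eval_eq_sum_range' hnd] at h
    simp only [eval_finsetSum, eval_mul, eval_pow, eval_C, coeff_map, coe_mapRingHom] at h
    rw [Finset.sum_range_succ, Finset.sum_range_succ, Finset.range_eq_Ico,
      Finset.sum_eq_sum_Ico_succ_bot hp.out.pos] at h
    simp only [pow_zero, mul_one, zero_add] at h
    change c 0 + ∑ k ∈ Finset.Ico 1 p, c k * b ^ k + c p * b ^ p + c (p + 1) * b ^ (p + 1) = 0 at h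
    rw [hctop, one_mul] at h
    rw [hR0, hRp]
    linear_combination h
  set R := R0 + Rp * b ^ p + ∑ k ∈ Finset.Ico 1 p, c k * b ^ k with hR
  have hA0 : 0 < A := one_pos.trans ha
  have hB1 : 1 < B := by
    by_contra hB1
    push Not at hB1
    have h1 : padicNorm ℓ (b ^ (p + 1) + -(a ^ p * b ^ p) + R) ≤ A ^ p := by
      refine padicNorm.nonarchimedean.trans (max_le (padicNorm.nonarchimedean.trans
        (max_le ?_ ?_)) ?_)
      · rw [habs]
        exact (pow_le_one₀ (padicNorm.nonneg b) hB1).trans (one_le_pow₀ ha.le)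
      · rw [padicNorm.neg, padicNorm.mul, habs, habs]
        exact mul_le_of_le_one_right (by positivity) (pow_le_one₀ (padicNorm.nonneg b) hB1)
      · refine padicNorm.nonarchimedean.trans (max_le (padicNorm.nonarchimedean.trans
          (max_le hR0le ?_)) ?_)
        · rw [padicNorm.mul, habs]
          exact (mul_le_of_le_one_right (padicNorm.nonneg _)
            (pow_le_one₀ (padicNorm.nonneg b) hB1)).trans
              (hRple.trans (pow_le_pow_right₀ ha.le (Nat.sub_le p 1)))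
        · refine padicNorm.sum_le' (fun k hk => ?_) (by positivity)
          obtain ⟨hk1, hk2⟩ := Finset.mem_Ico.1 hk
          rw [padicNorm.mul, habs]
          exact (mul_le_of_le_one_right (padicNorm.nonneg _)
            (pow_le_one₀ (padicNorm.nonneg b) hB1)).trans (hcle k hk1 hk2.le)
    have h2 := padicNorm_add_eq_left ℓ (x := ((Φ.coeff 0).coeff (p + 1) : ℚ) * a ^ (p + 1))
      (y := b ^ (p + 1) + -(a ^ p * b ^ p) + R)
      (by rw [hu]; exact h1.trans_lt (pow_lt_pow_right₀ ha (Nat.lt_succ_self p)))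
    rw [hu, show ((Φ.coeff 0).coeff (p + 1) : ℚ) * a ^ (p + 1)
      + (b ^ (p + 1) + -(a ^ p * b ^ p) + R) = 0 by linear_combination hsum, padicNorm.zero] at h2
    exact (pow_pos hA0 _).ne' h2.symm
  refine ⟨hB1, ?_⟩
  have hB0 : 0 < B := one_pos.trans hB1
  have hRlt : padicNorm ℓ R < A ^ p * B ^ p := by
    refine padicNorm.nonarchimedean.trans_lt (max_lt (padicNorm.nonarchimedean.trans_lt
      (max_lt ?_ ?_)) ?_)
    · exact hR0le.trans_lt (lt_mul_right (pow_pos hA0 p) (one_lt_pow₀ hB1 hp.out.ne_zero))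
    · rw [padicNorm.mul, habs]
      exact mul_lt_mul_of_pos_right
        (hRple.trans_lt (pow_lt_pow_right₀ ha (by omega))) (pow_pos hB0 p)
    · refine padicNorm.sum_lt' (fun k hk => ?_) (by positivity)
      obtain ⟨hk1, hk2⟩ := Finset.mem_Ico.1 hk
      rw [padicNorm.mul, habs]
      exact lt_of_le_of_lt (mul_le_mul_of_nonneg_right (hcle k hk1 hk2.le) (by positivity))
        (mul_lt_mul_of_pos_left (pow_lt_pow_right₀ hB1 hk2) (pow_pos hA0 p))
  set u : ℚ := ((Φ.coeff 0).coeff (p + 1) : ℚ) * a ^ (p + 1) with hudef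
  have hx : padicNorm ℓ (b ^ (p + 1)) = B ^ (p + 1) := habs _ _
  have hz : padicNorm ℓ (-(a ^ p * b ^ p)) = A ^ p * B ^ p := by
    rw [padicNorm.neg, padicNorm.mul, habs, habs]
  -- the two possible dominant pairs
  have key : A ^ p ≤ B ∨ B ^ p ≤ A := by
    by_contra hcon
    push Not at hcon
    have h1 : padicNorm ℓ (b ^ (p + 1) + u + R) < A ^ p * B ^ p := by
      refine padicNorm.nonarchimedean.trans_lt (max_lt (padicNorm.nonarchimedean.trans_lt
        (max_lt ?_ ?_)) hRlt)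
      · rw [hx, pow_succ']
        exact mul_lt_mul_of_pos_right hcon.1 (pow_pos hB0 p)
      · rw [hu, pow_succ]
        exact mul_lt_mul_of_pos_left hcon.2 (pow_pos hA0 p)
    rw [← hz] at h1
    have h2 := padicNorm_add_eq_left ℓ h1
    rw [show -(a ^ p * b ^ p) + (b ^ (p + 1) + u + R) = 0 by linear_combination hsum,
      padicNorm.zero, hz] at h2
    exact (by positivity : (0 : ℚ) < A ^ p * B ^ p).ne' h2.symm
  rcases key with hAB | hBA
  · left
    have hlt : A ^ (p + 1) < A ^ p * B ^ p := by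
      rw [pow_succ]
      refine mul_lt_mul_of_pos_left ?_ (pow_pos hA0 p)
      exact lt_of_lt_of_le (lt_of_eq_of_lt (pow_one A).symm (pow_lt_pow_right₀ ha hp1))
        (hAB.trans (le_self_pow₀ hB1.le hp.out.ne_zero))
    have hRu : padicNorm ℓ (u + R) < A ^ p * B ^ p :=
      padicNorm.nonarchimedean.trans_lt (max_lt (hu ▸ hlt) hRlt)
    have hB : B = A ^ p := by
      refine le_antisymm ?_ hAB
      by_contra hlt'
      push Not at hlt'
      have hbig : A ^ p * B ^ p < B ^ (p + 1) := by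
        rw [pow_succ']
        exact mul_lt_mul_of_pos_right hlt' (pow_pos hB0 p)
      have h1 : padicNorm ℓ (-(a ^ p * b ^ p) + (u + R)) < padicNorm ℓ (b ^ (p + 1)) := by
        rw [padicNorm_add_eq_left ℓ (hz.symm ▸ hRu), hz, hx]
        exact hbig
      have h2 := padicNorm_add_eq_left ℓ h1
      rw [show b ^ (p + 1) + (-(a ^ p * b ^ p) + (u + R)) = 0 by linear_combination hsum,
        padicNorm.zero, hx] at h2
      exact (pow_pos hB0 _).ne' h2.symm
    refine ⟨hB, ?_⟩
    have hb0 : b ≠ 0 := by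
      rintro rfl
      change 1 < padicNorm ℓ 0 at hB1
      rw [padicNorm.zero] at hB1
      linarith
    -- the derivative times `b`
    intro hder
    have hder' : (p + 1 : ℚ) * b ^ (p + 1) + p * (c p * b ^ p)
        + ∑ k ∈ Finset.Ico 1 p, (k : ℚ) * (c k * b ^ k) = 0 := by
      have h := congrArg (· * b) hder
      simp only [zero_mul] at h
      rw [evalEval, derivative_eval, sum_over_range' _ (fun n => by simp) (p + 2) hnd,
        eval_finsetSum, Finset.sum_mul, Finset.sum_range_succ, Finset.sum_range_succ,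
        Finset.range_eq_Ico, Finset.sum_eq_sum_Ico_succ_bot hp.out.pos] at h
      simp only [eval_mul, eval_pow, eval_C, eval_natCast, coeff_map, coe_mapRingHom,
        Nat.cast_zero, mul_zero, zero_mul, zero_add, eval_zero] at h
      change ∑ k ∈ Finset.Ico 1 p, c k * (k : ℚ) * b ^ (k - 1) * b + c p * (p : ℚ) * b ^ (p - 1) * b
        + c (p + 1) * ((p + 1 : ℕ) : ℚ) * b ^ (p + 1 - 1) * b = 0 at h
      rw [hctop, mul_assoc _ (b ^ (p - 1)), mul_assoc _ (b ^ (p + 1 - 1)), ← pow_succ, ← pow_succ,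
        show p - 1 + 1 = p by omega, show p + 1 - 1 + 1 = p + 1 by omega] at h
      have hs : ∑ k ∈ Finset.Ico 1 p, c k * (k : ℚ) * b ^ (k - 1) * b
          = ∑ k ∈ Finset.Ico 1 p, (k : ℚ) * (c k * b ^ k) := by
        refine Finset.sum_congr rfl fun k hk => ?_
        rw [mul_assoc _ (b ^ (k - 1)), ← pow_succ,
          show k - 1 + 1 = k by have := (Finset.mem_Ico.1 hk).1; omega]
        ring
      rw [hs] at h
      push_cast at h
      linear_combination h
    -- eliminate the dominant pair with the equation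
    have hkey : b ^ (p + 1) + (-(p : ℚ) * u + (-(p : ℚ) * R0
        + ∑ k ∈ Finset.Ico 1 p, ((k : ℚ) - p) * (c k * b ^ k))) = 0 := by
      simp only [sub_mul, Finset.sum_sub_distrib, ← Finset.mul_sum]
      rw [hR, hRp] at hsum
      linear_combination hder' - (p : ℚ) * hsum
    have hint : ∀ (n : ℤ) (x : ℚ), padicNorm ℓ ((n : ℚ) * x) ≤ padicNorm ℓ x := fun n x => by
      rw [padicNorm.mul]
      exact mul_le_of_le_one_left (padicNorm.nonneg _) (padicNorm.of_int n)
    have h1 : padicNorm ℓ (-(p : ℚ) * u + (-(p : ℚ) * R0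
        + ∑ k ∈ Finset.Ico 1 p, ((k : ℚ) - p) * (c k * b ^ k))) < B ^ (p + 1) := by
      have hBp : B ^ (p + 1) = A ^ p * B ^ p := by rw [pow_succ', hB]
      rw [hBp, show (-(p : ℚ)) = ((-(p : ℤ) : ℤ) : ℚ) by push_cast; rfl]
      refine padicNorm.nonarchimedean.trans_lt (max_lt ((hint _ _).trans_lt (hu.trans_lt hlt))
        (padicNorm.nonarchimedean.trans_lt (max_lt ((hint _ _).trans_lt (hR0le.trans_lt
          (lt_mul_right (pow_pos hA0 p) (one_lt_pow₀ hB1 hp.out.ne_zero)))) ?_)))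
      refine padicNorm.sum_lt' (fun k hk => ?_) (by positivity)
      obtain ⟨hk1, hk2⟩ := Finset.mem_Ico.1 hk
      rw [show (k : ℚ) - p = (((k : ℤ) - p : ℤ) : ℚ) by push_cast; rfl]
      refine (hint _ _).trans_lt ?_
      rw [padicNorm.mul, habs]
      exact lt_of_le_of_lt (mul_le_mul_of_nonneg_right (hcle k hk1 hk2.le) (by positivity))
        (mul_lt_mul_of_pos_left (pow_lt_pow_right₀ hB1 hk2) (pow_pos hA0 p))
    rw [← hx] at h1
    have h2 := padicNorm_add_eq_left ℓ h1
    rw [hkey, padicNorm.zero, hx] at h2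
    exact (pow_pos hB0 _).ne' h2.symm
  · right
    refine le_antisymm ?_ hBA
    by_contra hlt'
    push Not at hlt'
    have hlt : B ^ (p + 1) < A ^ p * B ^ p := by
      rw [pow_succ']
      refine mul_lt_mul_of_pos_right ?_ (pow_pos hB0 p)
      exact lt_of_lt_of_le (lt_of_eq_of_lt (pow_one B).symm (pow_lt_pow_right₀ hB1 hp1))
        (hBA.trans (le_self_pow₀ ha.le hp.out.ne_zero))
    have hbig : A ^ p * B ^ p < A ^ (p + 1) := by
      rw [pow_succ]
      exact mul_lt_mul_of_pos_left hlt' (pow_pos hA0 p)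
    have hRb : padicNorm ℓ (b ^ (p + 1) + R) < A ^ p * B ^ p :=
      padicNorm.nonarchimedean.trans_lt (max_lt (hx ▸ hlt) hRlt)
    have h1 : padicNorm ℓ (-(a ^ p * b ^ p) + (b ^ (p + 1) + R)) < padicNorm ℓ u := by
      rw [padicNorm_add_eq_left ℓ (hz.symm ▸ hRb), hz, hu]
      exact hbig
    have h2 := padicNorm_add_eq_left ℓ h1
    rw [show u + (-(a ^ p * b ^ p) + (b ^ (p + 1) + R)) = 0 by linear_combination hsum,
      padicNorm.zero, hu] at h2
    exact (pow_pos hA0 _).ne' h2.symm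

end Padic

end Fermat.Agent.Mazur.Moduli
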