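import Fermat.Agent.Mazur.Moduli.WeierstrassAdd
import Fermat.Agent.Modular.JValues
import Mathlib.NumberTheory.ModularForms.EisensteinSeries.QExpansion
import Mathlib.NumberTheory.ModularForms.LevelOne.GradedRing
import Mathlib.NumberTheory.LSeries.HurwitzZetaValues
import Mathlib.AlgebraicGeometry.EllipticCurve.VariableChange

/-!
# Lattice invariants and the modular invariant

`g₂`, `g₃` of `ℤ + ℤτ` as Eisenstein series, `j(ℂ/(ℤ + ℤτ)) = kleinJ τ`, and the invariants of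
`(1/p)ℤ + ℤτ` as symmetric functions of the `p`-torsion values `℘(i/p)`.
-/

set_option autoImplicit false

noncomputable section

open UpperHalfPlane ModularForm Complex Filter Topology
open scoped Real

namespace Fermat.Agent.Mazur.Moduli

open Fermat.Agent.Modular

/-- The period pair `(1, τ)`. -/
def tauPair (τ : ℍ) : PeriodPair where
  ω₁ := 1
  ω₂ := (τ : ℂ)
  indep := by
    rw [LinearIndependent.pair_iff]
    intro s t h
    have him := congrArg Complex.im h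
    have hre := congrArg Complex.re h
    simp at him hre
    have ht : t = 0 := him.resolve_right τ.im_pos.ne'
    exact ⟨by simpa [ht] using hre, ht⟩

/-- The period pair `(1/p, τ)`. -/
def isogenyPair (p : ℕ) [NeZero p] (τ : ℍ) : PeriodPair where
  ω₁ := 1 / (p : ℂ)
  ω₂ := (τ : ℂ)
  indep := by
    rw [LinearIndependent.pair_iff]
    intro s t h
    have him := congrArg Complex.im h
    have hre := congrArg Complex.re h
    simp at him hre
    have ht : t = 0 := him.resolve_right τ.im_pos.ne'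
    refine ⟨?_, ht⟩
    simpa [ht, NeZero.ne p] using hre

lemma G_eq_tsum_prod (L : PeriodPair) (k : ℕ) :
    L.G k = ∑' x : ℤ × ℤ, (((x.1 : ℂ) * L.ω₁ + (x.2 : ℂ) * L.ω₂) ^ k)⁻¹ := by
  rw [PeriodPair.G, ← L.latticeEquivProd.symm.toEquiv.tsum_eq]
  simp [L.latticeEquiv_symm_apply]

lemma summable_prod_invPow (L : PeriodPair) (z : ℂ) {k : ℕ} (hk : 2 < k) :
    Summable fun x : ℤ × ℤ => (((x.1 : ℂ) * L.ω₁ + (x.2 : ℂ) * L.ω₂ - z) ^ k)⁻¹ := by
  have := L.latticeEquivProd.symm.toEquiv.summable_iff.2 (L.hasSum_sumInvPow z hk).summable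
  refine this.congr fun x => ?_
  simp [L.latticeEquiv_symm_apply]

lemma sumInvPow_eq_tsum_prod (L : PeriodPair) (z : ℂ) (k : ℕ) :
    L.sumInvPow z k = ∑' x : ℤ × ℤ, (((x.1 : ℂ) * L.ω₁ + (x.2 : ℂ) * L.ω₂ - z) ^ k)⁻¹ := by
  rw [PeriodPair.sumInvPow, ← L.latticeEquivProd.symm.toEquiv.tsum_eq]
  simp [L.latticeEquiv_symm_apply]

lemma G_tauPair (τ : ℍ) {k : ℕ} (hk : 3 ≤ k) :
    (tauPair τ).G k = 2 * riemannZeta k * (E hk τ) := by
  rw [G_eq_tsum_prod, show (E hk τ : ℂ) = (1 / 2 : ℂ) • EisensteinSeries.eisensteinSeriesSIF (N := 1) 0 k τ from rfl,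
    EisensteinSeries.eisensteinSeriesSIF_apply, smul_eq_mul,
    show (2 : ℂ) * riemannZeta k * (1 / 2 * eisensteinSeries (N := 1) 0 k τ)
      = riemannZeta k * eisensteinSeries (N := 1) 0 k τ by ring,
    ← tsum_eisSummand_eq_riemannZeta_mul_eisensteinSeries hk,
    ← ((finTwoArrowEquiv ℤ).trans (Equiv.prodComm ℤ ℤ)).symm.tsum_eq]
  refine tsum_congr fun x => ?_
  simp [EisensteinSeries.eisSummand, tauPair, add_comm, zpow_natCast]

lemma bernoulli'_six : bernoulli' 6 = 1 / 42 := by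
  have h5 : bernoulli' 5 = 0 := bernoulli'_eq_zero_of_odd (by decide) (by norm_num)
  rw [bernoulli'_def]
  norm_num [Finset.sum_range_succ, Nat.choose, bernoulli'_four, h5]

lemma riemannZeta_six : riemannZeta 6 = (π : ℂ) ^ 6 / 945 := by
  have h := riemannZeta_two_mul_nat (k := 3) (by norm_num)
  rw [show 2 * 3 = 6 by norm_num, bernoulli_eq_bernoulli'_of_ne_one (by norm_num),
    bernoulli'_six] at h
  norm_num [Nat.factorial] at h
  rw [h]; ring

lemma g₂_tauPair (τ : ℍ) : (tauPair τ).g₂ = 4 * (π : ℂ) ^ 4 / 3 * E₄ τ := by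
  rw [PeriodPair.g₂, G_tauPair τ (by norm_num : 3 ≤ 4)]
  norm_num [riemannZeta_four]
  ring

lemma g₃_tauPair (τ : ℍ) : (tauPair τ).g₃ = 8 * (π : ℂ) ^ 6 / 27 * E₆ τ := by
  rw [PeriodPair.g₃, G_tauPair τ (by norm_num : 3 ≤ 6)]
  norm_num [riemannZeta_six]
  ring

lemma latticeCurve_Δ (L : PeriodPair) : (latticeCurve L).Δ = L.g₂ ^ 3 - 27 * L.g₃ ^ 2 := by
  simp [latticeCurve, WeierstrassCurve.Δ, WeierstrassCurve.b₂, WeierstrassCurve.b₄,
    WeierstrassCurve.b₆, WeierstrassCurve.b₈]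
  ring

lemma latticeCurve_c₄ (L : PeriodPair) : (latticeCurve L).c₄ = 12 * L.g₂ := by
  simp [latticeCurve, WeierstrassCurve.c₄, WeierstrassCurve.b₂, WeierstrassCurve.b₄]
  ring

lemma discr_tauPair (τ : ℍ) :
    (tauPair τ).g₂ ^ 3 - 27 * (tauPair τ).g₃ ^ 2 = 4096 * (π : ℂ) ^ 12 * discriminant τ := by
  rw [g₂_tauPair, g₃_tauPair, discriminant_eq_E₄_cube_sub_E₆_sq]
  ring

lemma latticeCurve_tauPair_Δ_ne_zero (τ : ℍ) : (latticeCurve (tauPair τ)).Δ ≠ 0 := by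
  rw [latticeCurve_Δ, discr_tauPair]
  have : (π : ℂ) ≠ 0 := by exact_mod_cast Real.pi_ne_zero
  simp [this, discriminant_ne_zero τ]

lemma kleinJ_eq_g₂ (τ : ℍ) :
    kleinJ τ = 1728 * (tauPair τ).g₂ ^ 3 / ((tauPair τ).g₂ ^ 3 - 27 * (tauPair τ).g₃ ^ 2) := by
  have : (π : ℂ) ≠ 0 := by exact_mod_cast Real.pi_ne_zero
  have hd := discriminant_ne_zero τ
  rw [discr_tauPair, g₂_tauPair, kleinJ_def]
  field_simp
  ring

lemma G_isogenyPair_eq_mul (p : ℕ) [NeZero p] (τ : ℍ) (k : ℕ) :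
    (isogenyPair p τ).G k = (p : ℂ) ^ k * (tauPair (mulH p τ)).G k := by
  rw [G_eq_tsum_prod, G_eq_tsum_prod, ← tsum_mul_left]
  refine tsum_congr fun x => ?_
  have hp : (p : ℂ) ≠ 0 := NeZero.natCast_ne p ℂ
  simp only [isogenyPair, tauPair, coe_mulH]
  rw [show (x.1 : ℂ) * (1 / (p : ℂ)) + (x.2 : ℂ) * (τ : ℂ)
    = ((x.1 : ℂ) * 1 + (x.2 : ℂ) * ((p : ℂ) * τ)) / p by field_simp]
  rw [div_pow, inv_div, div_eq_mul_inv]

lemma kleinJ_mulH_eq (p : ℕ) [NeZero p] (τ : ℍ) :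
    kleinJ (mulH p τ) = 1728 * (isogenyPair p τ).g₂ ^ 3 /
      ((isogenyPair p τ).g₂ ^ 3 - 27 * (isogenyPair p τ).g₃ ^ 2) := by
  have hp : (p : ℂ) ≠ 0 := NeZero.natCast_ne p ℂ
  rw [kleinJ_eq_g₂]
  simp only [PeriodPair.g₂, PeriodPair.g₃, G_isogenyPair_eq_mul]
  conv_rhs =>
    rw [show (1728 : ℂ) * (60 * ((p : ℂ) ^ 4 * (tauPair (mulH p τ)).G 4)) ^ 3
      = (p : ℂ) ^ 12 * (1728 * (60 * (tauPair (mulH p τ)).G 4) ^ 3) by ring,
      show (60 * ((p : ℂ) ^ 4 * (tauPair (mulH p τ)).G 4)) ^ 3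
          - 27 * (140 * ((p : ℂ) ^ 6 * (tauPair (mulH p τ)).G 6)) ^ 2
        = (p : ℂ) ^ 12 * ((60 * (tauPair (mulH p τ)).G 4) ^ 3
          - 27 * (140 * (tauPair (mulH p τ)).G 6) ^ 2) by ring,
      mul_div_mul_left _ _ (pow_ne_zero _ hp)]

lemma G_isogenyPair_eq_sum (p : ℕ) [NeZero p] (τ : ℍ) {k : ℕ} (hk : 2 < k) :
    (isogenyPair p τ).G k = ∑ i : Fin p, (tauPair τ).sumInvPow (-((i : ℕ) / (p : ℂ))) k := by
  have hp : (p : ℂ) ≠ 0 := NeZero.natCast_ne p ℂ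
  obtain ⟨e, he⟩ : ∃ e : (ℤ × ℤ) ≃ Fin p × (ℤ × ℤ),
      ∀ c, e.symm c = (c.2.1 * (p : ℤ) + ((c.1 : ℕ) : ℤ), c.2.2) := by
   let σ : (ℤ × Fin p) × ℤ ≃ Fin p × (ℤ × ℤ) :=
    { toFun := fun y => (y.1.2, (y.1.1, y.2))
      invFun := fun y => ((y.2.1, y.1), y.2.2)
      left_inv := fun _ => rfl
      right_inv := fun _ => rfl }
   refine ⟨((Int.divModEquiv p).prodCongr (Equiv.refl ℤ)).trans σ, fun c => ?_⟩
   simp [σ, Int.divModEquiv]
  have hs : Summable fun x : ℤ × ℤ =>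
      (((x.1 : ℂ) * (isogenyPair p τ).ω₁ + (x.2 : ℂ) * (isogenyPair p τ).ω₂) ^ k)⁻¹ := by
    simpa using summable_prod_invPow (isogenyPair p τ) 0 hk
  have hs' : Summable fun c : Fin p × (ℤ × ℤ) =>
      ((((e.symm c).1 : ℂ) * (isogenyPair p τ).ω₁
        + ((e.symm c).2 : ℂ) * (isogenyPair p τ).ω₂) ^ k)⁻¹ := e.symm.summable_iff.2 hs
  rw [G_eq_tsum_prod, ← e.symm.tsum_eq, hs'.tsum_prod, tsum_fintype]
  refine Finset.sum_congr rfl fun i _ => ?_
  rw [sumInvPow_eq_tsum_prod]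
  refine tsum_congr fun x => ?_
  simp only [he, isogenyPair, tauPair]
  congr 2
  push_cast
  field_simp
  ring

section SumInvPow

variable (L : PeriodPair)

lemma eventuallyEq_deriv_derivWeierstrassP {a : ℂ} (ha : a ∉ L.lattice) :
    deriv L.derivWeierstrassP =ᶠ[𝓝 a]
      fun z => 6 * L.weierstrassP z ^ 2 - L.g₂ / 2 := by
  filter_upwards [eventually_notMem_lattice L ha] with z hz
  have h := (hasDerivAt_yCoord L hz).const_mul (2 : ℂ)
  have hfun : (fun w => 2 * yCoord L w) = L.derivWeierstrassP := by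
    funext w; simp only [yCoord]; ring
  rw [hfun] at h
  rw [h.deriv]; ring

lemma sumInvPow_four {a : ℂ} (ha : a ∉ L.lattice) :
    L.sumInvPow a 4 = L.weierstrassP a ^ 2 - L.g₂ / 12 := by
  have h := L.deriv_derivWeierstrassPExcept_self a
  rw [L.derivWeierstrassPExcept_of_notMem a ha,
    (eventuallyEq_deriv_derivWeierstrassP L ha).eq_of_nhds] at h
  linear_combination -h / 6

lemma sumInvPow_six {a : ℂ} (ha : a ∉ L.lattice) :
    L.sumInvPow a 6 = L.weierstrassP a ^ 3 - 3 / 20 * L.g₂ * L.weierstrassP a - L.g₃ / 10 := by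
  have h := L.iteratedDeriv_derivWeierstrassPExcept_self a (n := 3)
  rw [L.derivWeierstrassPExcept_of_notMem a ha] at h
  have h2 : deriv (deriv L.derivWeierstrassP) =ᶠ[𝓝 a]
      fun z => 24 * (L.weierstrassP z * yCoord L z) := by
    filter_upwards [(eventuallyEq_deriv_derivWeierstrassP L ha).deriv,
      eventually_notMem_lattice L ha] with z hz hz'
    rw [hz]
    have := (((hasDerivAt_weierstrassP L hz').fun_pow 2).const_mul (6 : ℂ)).sub_const (L.g₂ / 2)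
    rw [this.deriv]; norm_num; ring
  have h3 : iteratedDeriv 3 L.derivWeierstrassP a =
      24 * (2 * yCoord L a * yCoord L a
        + L.weierstrassP a * (3 * L.weierstrassP a ^ 2 + -L.g₂ / 4)) := by
    rw [iteratedDeriv_succ, iteratedDeriv_succ, iteratedDeriv_one, h2.deriv_eq]
    exact (((hasDerivAt_weierstrassP L ha).fun_mul (hasDerivAt_yCoord L ha)).const_mul (24 : ℂ)).deriv
  rw [h3] at h
  norm_num [Nat.factorial] at h
  have e := yCoord_sq L ha
  linear_combination (-1 / 120 : ℂ) * h + (2 / 5 : ℂ) * e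

end SumInvPow

end Fermat.Agent.Mazur.Moduli
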