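import Fermat.Agent.Mazur.Moduli.LatticeJ
import Fermat.Agent.EC.Torsion.Count
import Fermat.Agent.EC.Det.VariableChangePoint
import Mathlib.AlgebraicGeometry.EllipticCurve.IsomOfJ
import Mathlib.FieldTheory.Galois.Infinite
import Mathlib.FieldTheory.IsAlgClosed.AlgebraicClosure
import Fermat.Prelude.Def_FLTPrelim_GaloisRep

/-!
# The `j`-invariant of the quotient by a Galois-stable subgroup of order `p`

If `P` is a point of exact order `p` on an elliptic curve `W/ℚ` whose subgroup is Galois stable,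
there is `τ` with `kleinJ τ = j(W)` and `kleinJ (pτ)` rational: the invariants of the superlattice
are symmetric functions of the `x`-coordinates of the multiples of `P`.
-/

set_option autoImplicit false

noncomputable section

open WeierstrassCurve UpperHalfPlane Complex
open scoped WeierstrassCurve.Affine
open scoped MatrixGroups Classical

namespace Fermat.Agent.Mazur.Moduli

open Fermat.Agent.Modular Fermat.Agent.EC Fermat.Agent.EC.TorsionCount

section QuotInvariants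

variable {K : Type*} [Field K] [DecidableEq K] (p : ℕ) [NeZero p]

/-- `g₂` of the quotient of `W` by the subgroup generated by `P`. -/
def quotA (W : WeierstrassCurve K) (P : W.toAffine.Point) : K :=
  W.c₄ / 12 + 60 * ∑ i ∈ Finset.univ.erase (0 : ZMod p),
    ((xCoord (i.val • P) + W.b₂ / 12) ^ 2 - W.c₄ / 144)

/-- `g₃` of the quotient of `W` by the subgroup generated by `P`. -/
def quotB (W : WeierstrassCurve K) (P : W.toAffine.Point) : K :=
  W.c₆ / 216 + 140 * ∑ i ∈ Finset.univ.erase (0 : ZMod p),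
    ((xCoord (i.val • P) + W.b₂ / 12) ^ 3 - W.c₄ / 80 * (xCoord (i.val • P) + W.b₂ / 12)
      - W.c₆ / 2160)

end QuotInvariants

section Reindex

variable {p : ℕ} [hp : Fact p.Prime] {K : Type*} [Field K] [DecidableEq K]
  {W : WeierstrassCurve K} {P : W.toAffine.Point}

lemma val_smul_smul (hP : p • P = 0) (k i : ZMod p) :
    i.val • (k.val • P) = (k * i).val • P := by
  have hmod : ∀ n : ℕ, n • P = (n % p) • P := fun n => by
    conv_lhs => rw [← Nat.div_add_mod n p, add_nsmul, mul_comm p, mul_nsmul', hP, nsmul_zero,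
      zero_add]
  rw [← mul_nsmul, hmod, ZMod.val_mul]

lemma sum_smul_eq {M : Type*} [AddCommMonoid M] (f : W.toAffine.Point → M) (hP : p • P = 0)
    {k : ZMod p} (hk : k ≠ 0) :
    ∑ i ∈ Finset.univ.erase (0 : ZMod p), f (i.val • (k.val • P))
      = ∑ i ∈ Finset.univ.erase (0 : ZMod p), f (i.val • P) := by
  refine Finset.sum_equiv (Equiv.mulLeft₀ k hk) (fun i => by simp [hk]) fun i _ => ?_
  rw [val_smul_smul hP]; rfl

lemma quotA_smul (hP : p • P = 0) {k : ZMod p} (hk : k ≠ 0) :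
    quotA p W (k.val • P) = quotA p W P := by
  unfold quotA
  rw [sum_smul_eq (fun Q => (xCoord Q + W.b₂ / 12) ^ 2 - W.c₄ / 144) hP hk]

lemma quotB_smul (hP : p • P = 0) {k : ZMod p} (hk : k ≠ 0) :
    quotB p W (k.val • P) = quotB p W P := by
  unfold quotB
  rw [sum_smul_eq (fun Q => (xCoord Q + W.b₂ / 12) ^ 3
    - W.c₄ / 80 * (xCoord Q + W.b₂ / 12) - W.c₆ / 2160) hP hk]

omit hp in
lemma val_smul_ne_zero [Fact p.Prime] (hP : p • P = 0) (h0 : P ≠ 0) {i : ZMod p} (hi : i ≠ 0) :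
    i.val • P ≠ 0 := by
  intro h
  apply h0
  have := val_smul_smul hP i i⁻¹
  rw [h, smul_zero, mul_inv_cancel₀ hi, ZMod.val_one, one_nsmul] at this
  exact this.symm

end Reindex

section Transport

variable {p : ℕ} [hp : Fact p.Prime] {K : Type*} [Field K] [CharZero K] [DecidableEq K]
  {W W' : WeierstrassCurve K} {C : VariableChange K} (h : C • W = W')

include h

omit [DecidableEq K] in
lemma c₄_vc : W.c₄ = (C.u : K) ^ 4 * W'.c₄ := by
  rw [← h, variableChange_c₄, ← mul_assoc, ← mul_pow, Units.mul_inv, one_pow, one_mul]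

omit [DecidableEq K] in
lemma c₆_vc : W.c₆ = (C.u : K) ^ 6 * W'.c₆ := by
  rw [← h, variableChange_c₆, ← mul_assoc, ← mul_pow, Units.mul_inv, one_pow, one_mul]

lemma xCoord_vc {Q : W'.toAffine.Point} (hQ : Q ≠ 0) :
    xCoord (vcPointEquiv (W := W.toAffine) (W' := W'.toAffine) h Q) + W.b₂ / 12
      = (C.u : K) ^ 2 * (xCoord Q + W'.b₂ / 12) := by
  rcases Q with _ | ⟨x, y, hxy⟩
  · exact absurd rfl hQ
  have hb : (C.u : K) ^ 2 * W'.b₂ = W.b₂ + 12 * C.r := by
    rw [← h, variableChange_b₂, ← mul_assoc, ← mul_pow, Units.mul_inv, one_pow, one_mul]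
  rw [vcPointEquiv_some, xCoord_some, xCoord_some, vcX]
  linear_combination (-1 / 12 : K) * hb

lemma quotA_vc {Q : W'.toAffine.Point} (hQ : p • Q = 0) (h0 : Q ≠ 0) :
    quotA p W (vcPointEquiv (W := W.toAffine) (W' := W'.toAffine) h Q)
      = (C.u : K) ^ 4 * quotA p W' Q := by
  unfold quotA
  rw [mul_add, mul_left_comm ((C.u : K) ^ 4) (60 : K), c₄_vc h]
  congr 1
  · ring
  congr 1
  rw [Finset.mul_sum]
  refine Finset.sum_congr rfl fun i hi => ?_
  rw [← map_nsmul, xCoord_vc h (val_smul_ne_zero hQ h0 (Finset.ne_of_mem_erase hi))]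
  ring

lemma quotB_vc {Q : W'.toAffine.Point} (hQ : p • Q = 0) (h0 : Q ≠ 0) :
    quotB p W (vcPointEquiv (W := W.toAffine) (W' := W'.toAffine) h Q)
      = (C.u : K) ^ 6 * quotB p W' Q := by
  unfold quotB
  rw [mul_add, mul_left_comm ((C.u : K) ^ 6) (140 : K), c₄_vc h, c₆_vc h]
  congr 1
  · ring
  congr 1
  rw [Finset.mul_sum]
  refine Finset.sum_congr rfl fun i hi => ?_
  rw [← map_nsmul, xCoord_vc h (val_smul_ne_zero hQ h0 (Finset.ne_of_mem_erase hi))]
  ring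

end Transport

section Base

variable {p : ℕ} [hp : Fact p.Prime] (W : WeierstrassCurve ℚ)
  {F K : Type*} [Field F] [Field K] [CharZero F] [CharZero K] [DecidableEq F] [DecidableEq K]
  [Algebra ℚ F] [Algebra ℚ K] (f : F →ₐ[ℚ] K)

omit [CharZero F] [CharZero K] hp in
lemma xCoord_map (Q : (W⁄F).Point) :
    xCoord (W := (W⁄K)) (Affine.Point.map f Q) = f (xCoord Q) := by
  rcases Q with _ | ⟨x, y, hxy⟩
  · exact (map_zero f).symm
  · rfl

omit [CharZero F] [CharZero K] hp in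
lemma invariants_map :
    (W.baseChange K).b₂ = f (W.baseChange F).b₂ ∧ (W.baseChange K).c₄ = f (W.baseChange F).c₄ ∧
      (W.baseChange K).c₆ = f (W.baseChange F).c₆ := by
  simp [WeierstrassCurve.baseChange]

omit [CharZero F] [CharZero K] in
lemma quotA_map (Q : (W⁄F).Point) :
    quotA p (W.baseChange K) (Affine.Point.map f Q) = f (quotA p (W.baseChange F) Q) := by
  obtain ⟨e1, e2, -⟩ := invariants_map W f
  have key : ∀ i : ℕ, xCoord (i • Affine.Point.map f Q) = f (xCoord (i • Q)) := fun i => by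
    rw [← map_nsmul, xCoord_map W f]
  unfold quotA
  simp only [key, e1, e2, map_add, map_mul, map_sum, map_sub, map_div₀, map_pow, map_ofNat]

omit [CharZero F] [CharZero K] in
lemma quotB_map (Q : (W⁄F).Point) :
    quotB p (W.baseChange K) (Affine.Point.map f Q) = f (quotB p (W.baseChange F) Q) := by
  obtain ⟨e1, e2, e3⟩ := invariants_map W f
  have key : ∀ i : ℕ, xCoord (i • Affine.Point.map f Q) = f (xCoord (i • Q)) := fun i => by
    rw [← map_nsmul, xCoord_map W f]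
  unfold quotB
  simp only [key, e1, e2, e3, map_add, map_mul, map_sum, map_sub, map_div₀, map_pow, map_ofNat]

end Base

section Rational

variable {p : ℕ} [hp : Fact p.Prime] (W : WeierstrassCurve ℚ)

lemma mem_range_of_fixed (x : AlgebraicClosure ℚ)
    (hx : ∀ σ : AlgebraicClosure ℚ ≃ₐ[ℚ] AlgebraicClosure ℚ, σ x = x) :
    ∃ r : ℚ, (r : AlgebraicClosure ℚ) = x := by
  have : Algebra.IsAlgebraic ℚ (AlgebraicClosure ℚ) := AlgebraicClosure.isAlgebraic ℚ
  have : IsAlgClosure ℚ (AlgebraicClosure ℚ) := ⟨inferInstance, inferInstance⟩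
  have : IsGalois ℚ (AlgebraicClosure ℚ) := IsAlgClosure.isGalois ℚ _
  obtain ⟨r, hr⟩ := IntermediateField.mem_bot.1 ((InfiniteGalois.mem_bot_iff_fixed x).2 hx)
  exact ⟨r, by rw [← hr, eq_ratCast]⟩

lemma quot_rational {P : (W⁄(AlgebraicClosure ℚ)).Point} (hP : p • P = 0) (h0 : P ≠ 0)
    (hσ : ∀ σ : AlgebraicClosure ℚ ≃ₐ[ℚ] AlgebraicClosure ℚ, ∃ k : ℕ, σ • P = k • P) :
    (∃ A : ℚ, (A : AlgebraicClosure ℚ) = quotA p (W.baseChange (AlgebraicClosure ℚ)) P) ∧
      ∃ B : ℚ, (B : AlgebraicClosure ℚ) = quotB p (W.baseChange (AlgebraicClosure ℚ)) P := by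
  have hk : ∀ σ : AlgebraicClosure ℚ ≃ₐ[ℚ] AlgebraicClosure ℚ,
      ∃ k : ZMod p, k ≠ 0 ∧ Affine.Point.map σ.toAlgHom P = k.val • P := by
    intro σ
    obtain ⟨k, hk⟩ := hσ σ
    have e : k • P = (k : ZMod p).val • P := by
      conv_lhs => rw [← Nat.div_add_mod k p, add_nsmul, mul_comm p, mul_nsmul', hP, nsmul_zero,
        zero_add]
      rw [ZMod.val_natCast]
    refine ⟨(k : ZMod p), fun hk0 => h0 ?_, (Affine.Point.algEquiv_smul_def σ P).symm.trans
      (hk.trans e)⟩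
    rw [hk0, ZMod.val_zero, zero_nsmul] at e
    rw [e] at hk
    have := congrArg (σ⁻¹ • ·) hk
    simpa using this
  constructor
  · refine mem_range_of_fixed _ fun σ => ?_
    obtain ⟨k, hk0, hk⟩ := hk σ
    have := quotA_map (p := p) W σ.toAlgHom P
    rw [hk, quotA_smul hP hk0] at this
    exact this.symm
  · refine mem_range_of_fixed _ fun σ => ?_
    obtain ⟨k, hk0, hk⟩ := hk σ
    have := quotB_map (p := p) W σ.toAlgHom P
    rw [hk, quotB_smul hP hk0] at this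
    exact this.symm

end Rational

section Lattice

variable {p : ℕ} [hp : Fact p.Prime] (L : PeriodPair) (hΔ : (latticeCurve L).Δ ≠ 0)

lemma quot_latticePoint {a : ℂ} (hpa : (p : ℂ) * a ∈ L.lattice) (ha : a ∉ L.lattice) :
    quotA p (latticeCurve L) (latticePoint L hΔ a) =
        60 * ∑ i : ZMod p, L.sumInvPow (-((i.val : ℂ) * a)) 4 ∧
      quotB p (latticeCurve L) (latticePoint L hΔ a) =
        140 * ∑ i : ZMod p, L.sumInvPow (-((i.val : ℂ) * a)) 6 := by
  have hP : p • latticePointHom L hΔ a = 0 := by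
    rw [← map_nsmul, nsmul_eq_mul, latticePointHom_apply, latticePoint_eq_zero_iff]
    exact hpa
  have h0 : latticePointHom L hΔ a ≠ 0 := by
    rw [latticePointHom_apply, ne_eq, latticePoint_eq_zero_iff]
    exact ha
  have hmem : ∀ i : ZMod p, i ≠ 0 → -((i.val : ℂ) * a) ∉ L.lattice := by
    intro i hi h
    refine val_smul_ne_zero hP h0 hi ?_
    rw [← map_nsmul, nsmul_eq_mul, latticePointHom_apply, latticePoint_eq_zero_iff]
    simpa using h
  have hx : ∀ i : ZMod p, i ≠ 0 →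
      xCoord (i.val • latticePoint L hΔ a) = L.weierstrassP (-((i.val : ℂ) * a)) := by
    intro i hi
    rw [← latticePointHom_apply, ← map_nsmul, nsmul_eq_mul, latticePointHom_apply]
    obtain ⟨h', e⟩ := latticePoint_of_notMem L hΔ (z := (i.val : ℂ) * a)
      (fun h => hmem i hi (L.lattice.neg_mem h))
    rw [e, xCoord_some, L.weierstrassP_neg]
  have hb : (latticeCurve L).b₂ = 0 := by
    simp [latticeCurve, WeierstrassCurve.b₂]
  have hc6 : (latticeCurve L).c₆ = 216 * L.g₃ := by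
    simp [latticeCurve, WeierstrassCurve.c₆, WeierstrassCurve.b₂, WeierstrassCurve.b₄,
      WeierstrassCurve.b₆]
    ring
  constructor
  · rw [quotA, hb, latticeCurve_c₄, ← Finset.add_sum_erase _ _ (Finset.mem_univ (0 : ZMod p)),
      ZMod.val_zero, Nat.cast_zero, zero_mul, neg_zero, L.sumInvPow_zero, mul_add, PeriodPair.g₂]
    congr 1
    · ring
    congr 1
    refine Finset.sum_congr rfl fun i hi => ?_
    have hi := Finset.ne_of_mem_erase hi
    rw [sumInvPow_four L (hmem i hi), hx i hi, PeriodPair.g₂]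
    ring
  · rw [quotB, hb, latticeCurve_c₄, hc6, ← Finset.add_sum_erase _ _ (Finset.mem_univ (0 : ZMod p)),
      ZMod.val_zero, Nat.cast_zero, zero_mul, neg_zero, L.sumInvPow_zero, mul_add, PeriodPair.g₃]
    congr 1
    · ring
    congr 1
    refine Finset.sum_congr rfl fun i hi => ?_
    have hi := Finset.ne_of_mem_erase hi
    rw [sumInvPow_six L (hmem i hi), hx i hi, PeriodPair.g₂, PeriodPair.g₃]
    ring

lemma mem_lattice_tauPair_iff {τ : ℍ} {z : ℂ} :
    z ∈ (tauPair τ).lattice ↔ ∃ m n : ℤ, (m : ℂ) + n * τ = z := by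
  rw [PeriodPair.mem_lattice]
  simp [tauPair]

lemma sum_zmod_eq_sum_fin {M : Type*} [AddCommMonoid M] (F : ℕ → M) :
    ∑ i : ZMod p, F i.val = ∑ i : Fin p, F i := by
  obtain ⟨k, hk⟩ : ∃ k, p = k + 1 := ⟨p - 1, (Nat.succ_pred_eq_of_pos hp.out.pos).symm⟩
  subst hk
  rfl

end Lattice

section Scale

/-- If `ℤ + ℤτ = c (ℤ + ℤτ₀)` via the unimodular substitution below, sums scale by `c⁻ᵏ`. -/
lemma sumInvPow_scale (τ τ₀ : ℍ) (m : ℤ) (c : ℂ) (hc : c * (τ₀ + m) = 1) (hτ : (τ : ℂ) = -c)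
    (z : ℂ) (k : ℕ) :
    (tauPair τ).sumInvPow (c * z) k = (c ^ k)⁻¹ * (tauPair τ₀).sumInvPow z k := by
  let e : ℤ × ℤ ≃ ℤ × ℤ :=
    { toFun := fun x => (m * x.1 - x.2, x.1)
      invFun := fun y => (y.2, m * y.2 - y.1)
      left_inv := fun x => by ext <;> simp
      right_inv := fun y => by ext <;> simp }
  rw [sumInvPow_eq_tsum_prod, sumInvPow_eq_tsum_prod, ← tsum_mul_left]
  refine (tsum_congr fun x => ?_).trans (e.tsum_eq _)
  simp only [tauPair, hτ, e, Equiv.coe_fn_mk]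
  rw [← mul_inv, ← mul_pow]
  congr 2
  push_cast
  linear_combination (-(x.1 : ℂ)) * hc

end Scale

section Main

variable {p : ℕ} [hp : Fact p.Prime]

lemma exists_lattice_preimage (τ : ℍ) {Q : (latticeCurve (tauPair τ)).toAffine.Point}
    (hQ : p • Q = 0) :
    ∃ m n : ℕ, m < p ∧ n < p ∧
      latticePoint (tauPair τ) (latticeCurve_tauPair_Δ_ne_zero τ) (((m : ℂ) + n * τ) / p) = Q := by
  set hΔ := latticeCurve_tauPair_Δ_ne_zero τ
  have hp0 : (p : ℂ) ≠ 0 := NeZero.natCast_ne p ℂ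
  have : (latticeCurve (tauPair τ)).toAffine.IsElliptic := ⟨IsUnit.mk0 _ hΔ⟩
  set S := {P : (latticeCurve (tauPair τ)).toAffine.Point // (p : ℤ) • P = 0}
  have hcard : Nat.card S = p ^ 2 := by
    rw [natCard_ker_zsmul (n := (p : ℤ)) (by exact_mod_cast hp0), Int.natAbs_natCast]
  let F : Fin p × Fin p → S := fun x =>
    ⟨latticePointHom (tauPair τ) hΔ ((((x.1 : ℕ) : ℂ) + (x.2 : ℕ) * τ) / p), by
      rw [natCast_zsmul, ← map_nsmul, nsmul_eq_mul, latticePointHom_apply,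
        latticePoint_eq_zero_iff, mem_lattice_tauPair_iff]
      exact ⟨(x.1 : ℕ), (x.2 : ℕ), by push_cast; field_simp⟩⟩
  have : Finite S := Nat.finite_of_card_ne_zero (by rw [hcard]; exact pow_ne_zero 2 hp.out.ne_zero)
  have hinj : Function.Injective F := by
    intro x y hxy
    have hmem : ((((x.1 : ℕ) : ℂ) + (x.2 : ℕ) * τ) / p) - ((((y.1 : ℕ) : ℂ) + (y.2 : ℕ) * τ) / p)
        ∈ (tauPair τ).lattice := by
      rw [← latticePoint_eq_zero_iff (tauPair τ) hΔ, ← latticePointHom_apply, map_sub, sub_eq_zero]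
      exact congrArg Subtype.val hxy
    obtain ⟨u, v, huv⟩ := mem_lattice_tauPair_iff.1 hmem
    field_simp at huv
    have him := congrArg Complex.im huv
    simp at him
    have hv : ((v * p : ℤ) : ℝ) = (((x.2 : ℕ) - (y.2 : ℕ) : ℤ) : ℝ) := by
      refine mul_right_cancel₀ τ.im_pos.ne' ?_
      push_cast
      linear_combination him
    have hv' : v * p = ((x.2 : ℕ) : ℤ) - (y.2 : ℕ) := by exact_mod_cast hv
    have hu : ((u * p : ℤ) : ℂ) = (((x.1 : ℕ) - (y.1 : ℕ) : ℤ) : ℂ) := by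
      have hvC : (v : ℂ) * p = ((x.2 : ℕ) : ℂ) - (y.2 : ℕ) := by exact_mod_cast hv'
      push_cast
      linear_combination huv - (τ : ℂ) * hvC
    have hu' : u * p = ((x.1 : ℕ) : ℤ) - (y.1 : ℕ) := by exact_mod_cast hu
    refine Prod.ext (Fin.ext ?_) (Fin.ext ?_)
    · have := Int.eq_zero_of_dvd_of_natAbs_lt_natAbs (n := ((x.1 : ℕ) : ℤ) - (y.1 : ℕ))
        (d := (p : ℤ)) ⟨u, by rw [← hu']; ring⟩ (by have := x.1.2; have := y.1.2; omega)
      omega
    · have := Int.eq_zero_of_dvd_of_natAbs_lt_natAbs (n := ((x.2 : ℕ) : ℤ) - (y.2 : ℕ))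
        (d := (p : ℤ)) ⟨v, by rw [← hv']; ring⟩ (by have := x.2.2; have := y.2.2; omega)
      omega
  obtain ⟨x, hx⟩ := (hinj.bijective_of_nat_card_le (by
    rw [hcard, Nat.card_prod, Nat.card_fin, sq])).2 ⟨Q, by rwa [natCast_zsmul]⟩
  exact ⟨x.1, x.2, x.1.2, x.2.2, congrArg Subtype.val hx⟩

lemma exists_normalised_tau (τ₀ : ℍ) {Q : (latticeCurve (tauPair τ₀)).toAffine.Point}
    (hQ : p • Q = 0) (h0 : Q ≠ 0) :
    ∃ τ : ℍ, ∃ c : ℂ, c ≠ 0 ∧ kleinJ τ = kleinJ τ₀ ∧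
      (isogenyPair p τ).g₂ = (c ^ 4)⁻¹ * quotA p (latticeCurve (tauPair τ₀)) Q ∧
      (isogenyPair p τ).g₃ = (c ^ 6)⁻¹ * quotB p (latticeCurve (tauPair τ₀)) Q := by
  set hΔ := latticeCurve_tauPair_Δ_ne_zero τ₀
  have hp0 : (p : ℂ) ≠ 0 := NeZero.natCast_ne p ℂ
  obtain ⟨m, n, hm, hn, hmn⟩ := exists_lattice_preimage τ₀ hQ
  have hint : ∀ z w : ℂ, z - w ∈ (tauPair τ₀).lattice →
      latticePoint _ hΔ z = latticePoint _ hΔ w := fun z w hzw => by
    rw [← latticePointHom_apply, ← latticePointHom_apply, ← sub_eq_zero, ← map_sub,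
      latticePointHom_apply, latticePoint_eq_zero_iff]
    exact hzw
  -- a nonzero multiple of `Q` of the shape `(m' + τ₀)/p` or `1/p`
  rcases Nat.eq_zero_or_pos n with rfl | hn0
  · have hm0 : (m : ZMod p) ≠ 0 := by
      rw [ne_eq, ZMod.natCast_eq_zero_iff]
      intro hd
      obtain rfl : m = 0 := Nat.eq_zero_of_dvd_of_lt hd hm
      apply h0
      rw [← hmn]
      simp [latticePoint_eq_zero_iff]
    set k : ZMod p := (m : ZMod p)⁻¹
    have hk : k ≠ 0 := inv_ne_zero hm0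
    obtain ⟨l, hl⟩ : ∃ l : ℤ, (k.val : ℤ) * m = 1 + p * l := by
      have : (((k.val : ℤ) * m - 1 : ℤ) : ZMod p) = 0 := by
        push_cast; rw [ZMod.natCast_zmod_val, inv_mul_cancel₀ hm0, sub_self]
      obtain ⟨l, hl⟩ := (ZMod.intCast_zmod_eq_zero_iff_dvd _ p).1 this
      exact ⟨l, by linarith⟩
    have hl' : (k.val : ℂ) * m = 1 + p * l := by exact_mod_cast hl
    have hQk : latticePoint _ hΔ (1 / (p : ℂ)) = k.val • Q := by
      rw [← hmn, ← latticePointHom_apply, ← latticePointHom_apply, ← map_nsmul, nsmul_eq_mul,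
        latticePointHom_apply, latticePointHom_apply]
      refine hint _ _ (mem_lattice_tauPair_iff.2 ⟨-l, 0, ?_⟩)
      field_simp
      push_cast
      linear_combination hl'
    obtain ⟨eA, eB⟩ := quot_latticePoint (p := p) (tauPair τ₀) hΔ (a := 1 / (p : ℂ))
      (mem_lattice_tauPair_iff.2 ⟨1, 0, by field_simp; simp⟩)
      (fun h => val_smul_ne_zero hQ h0 hk (hQk ▸ (latticePoint_eq_zero_iff _ hΔ).2 h))
    rw [hQk, quotA_smul hQ hk] at eA
    rw [hQk, quotB_smul hQ hk] at eB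
    refine ⟨τ₀, 1, one_ne_zero, rfl, ?_, ?_⟩
    · rw [eA, sum_zmod_eq_sum_fin (fun i => (tauPair τ₀).sumInvPow (-((i : ℂ) * (1 / p))) 4),
        PeriodPair.g₂, G_isogenyPair_eq_sum p τ₀ (by norm_num)]
      simp [div_eq_mul_inv]
    · rw [eB, sum_zmod_eq_sum_fin (fun i => (tauPair τ₀).sumInvPow (-((i : ℂ) * (1 / p))) 6),
        PeriodPair.g₃, G_isogenyPair_eq_sum p τ₀ (by norm_num)]
      simp [div_eq_mul_inv]
  · have hn' : (n : ZMod p) ≠ 0 := by
      rw [ne_eq, ZMod.natCast_eq_zero_iff]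
      exact fun hd => hn0.ne' (Nat.eq_zero_of_dvd_of_lt hd hn)
    set k : ZMod p := (n : ZMod p)⁻¹
    have hk : k ≠ 0 := inv_ne_zero hn'
    obtain ⟨l, hl⟩ : ∃ l : ℤ, (k.val : ℤ) * n = 1 + p * l := by
      have : (((k.val : ℤ) * n - 1 : ℤ) : ZMod p) = 0 := by
        push_cast; rw [ZMod.natCast_zmod_val, inv_mul_cancel₀ hn', sub_self]
      obtain ⟨l, hl⟩ := (ZMod.intCast_zmod_eq_zero_iff_dvd _ p).1 this
      exact ⟨l, by linarith⟩
    have hl' : (k.val : ℂ) * n = 1 + p * l := by exact_mod_cast hl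
    set m' : ℤ := (k.val : ℤ) * m
    set a : ℂ := ((m' : ℂ) + τ₀) / p
    have hQk : latticePoint _ hΔ a = k.val • Q := by
      rw [← hmn, ← latticePointHom_apply, ← latticePointHom_apply, ← map_nsmul, nsmul_eq_mul,
        latticePointHom_apply, latticePointHom_apply]
      refine hint _ _ (mem_lattice_tauPair_iff.2 ⟨0, -l, ?_⟩)
      simp only [a, m']
      field_simp
      push_cast
      linear_combination (τ₀ : ℂ) * hl'
    obtain ⟨eA, eB⟩ := quot_latticePoint (p := p) (tauPair τ₀) hΔ (a := a)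
      (mem_lattice_tauPair_iff.2 ⟨m', 1, by simp only [a]; field_simp; simp⟩)
      (fun h => val_smul_ne_zero hQ h0 hk (hQk ▸ (latticePoint_eq_zero_iff _ hΔ).2 h))
    rw [hQk, quotA_smul hQ hk] at eA
    rw [hQk, quotB_smul hQ hk] at eB
    -- `τ = -1/(τ₀ + m')`
    let γ : SL(2, ℤ) := ⟨!![0, -1; 1, m'], by simp [Matrix.det_fin_two]⟩
    have hne : (τ₀ : ℂ) + m' ≠ 0 := fun h => τ₀.im_pos.ne' (by simpa using congrArg Complex.im h)
    set c : ℂ := ((τ₀ : ℂ) + m')⁻¹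
    have hc : c * ((τ₀ : ℂ) + m') = 1 := inv_mul_cancel₀ hne
    have hτ : ((γ • τ₀ : ℍ) : ℂ) = -c := by
      rw [coe_specialLinearGroup_apply]
      simp [γ, c, div_eq_mul_inv]
    have hca : c * a = 1 / (p : ℂ) := by
      simp only [a]
      rw [mul_div_assoc', add_comm (m' : ℂ), hc]
    refine ⟨γ • τ₀, c, inv_ne_zero hne, kleinJ_smul γ τ₀, ?_, ?_⟩
    · rw [eA, sum_zmod_eq_sum_fin (fun i => (tauPair τ₀).sumInvPow (-((i : ℂ) * a)) 4),
        PeriodPair.g₂, G_isogenyPair_eq_sum p _ (by norm_num),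
        mul_left_comm ((c ^ 4)⁻¹), Finset.mul_sum (a := (c ^ 4)⁻¹)]
      congr 1
      refine Finset.sum_congr rfl fun i _ => ?_
      rw [← sumInvPow_scale _ τ₀ m' c hc hτ, mul_neg, mul_left_comm c, hca, mul_one_div]
    · rw [eB, sum_zmod_eq_sum_fin (fun i => (tauPair τ₀).sumInvPow (-((i : ℂ) * a)) 6),
        PeriodPair.g₃, G_isogenyPair_eq_sum p _ (by norm_num),
        mul_left_comm ((c ^ 6)⁻¹), Finset.mul_sum (a := (c ^ 6)⁻¹)]
      congr 1
      refine Finset.sum_congr rfl fun i _ => ?_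
      rw [← sumInvPow_scale _ τ₀ m' c hc hτ, mul_neg, mul_left_comm c, hca, mul_one_div]

/-- A Galois-stable subgroup of order `p` gives a point `(j, j')` of `Y₀(p)` with `j'` rational. -/
theorem exists_tau_quotient_rational (W : WeierstrassCurve ℚ) [W.IsElliptic]
    (P : (W⁄(AlgebraicClosure ℚ)).Point) (hP : p • P = 0) (h0 : P ≠ 0)
    (hσ : ∀ σ : AlgebraicClosure ℚ ≃ₐ[ℚ] AlgebraicClosure ℚ, ∃ k : ℕ, σ • P = k • P) :
    ∃ τ : ℍ, kleinJ τ = (W.j : ℂ) ∧ ∃ b : ℚ, kleinJ (mulH p τ) = (b : ℂ) := by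
  obtain ⟨⟨A, hA⟩, B, hB⟩ := quot_rational W hP h0 hσ
  have : Algebra.IsAlgebraic ℚ (AlgebraicClosure ℚ) := AlgebraicClosure.isAlgebraic ℚ
  let ι : AlgebraicClosure ℚ →ₐ[ℚ] ℂ := IsAlgClosed.lift
  obtain ⟨τ₀, hτ₀⟩ := kleinJ_surjective (W.j : ℂ)
  set L := tauPair τ₀
  have hΔ := latticeCurve_tauPair_Δ_ne_zero τ₀
  have : (W.baseChange ℂ).IsElliptic := inferInstanceAs (W.map (algebraMap ℚ ℂ)).IsElliptic
  have : (latticeCurve L).IsElliptic := ⟨IsUnit.mk0 _ hΔ⟩
  have hj : (W.baseChange ℂ).j = (latticeCurve L).j := by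
    rw [show (W.baseChange ℂ).j = algebraMap ℚ ℂ W.j from W.map_j _, eq_ratCast, ← hτ₀,
      kleinJ_eq_g₂, WeierstrassCurve.j, ← latticeCurve_Δ, Units.val_inv_eq_inv_val, coe_Δ',
      latticeCurve_c₄, div_eq_inv_mul]
    ring
  obtain ⟨C, hC⟩ := exists_variableChange_of_j_eq (W.baseChange ℂ) (latticeCurve L) hj
  set e := vcPointEquiv (W := (W.baseChange ℂ).toAffine) (W' := (latticeCurve L).toAffine) hC
  set Q := e.symm (Affine.Point.map ι P)
  have hQ : p • Q = 0 := by rw [← map_nsmul, ← map_nsmul, hP, map_zero, map_zero]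
  have hQ0 : Q ≠ 0 := by
    intro h
    apply h0
    apply Affine.Point.map_injective (f := ι)
    rw [map_zero]
    exact (map_eq_zero_iff e.symm e.symm.injective).1 h
  obtain ⟨τ, c, hc, hτ, h2, h3⟩ := exists_normalised_tau τ₀ hQ hQ0
  refine ⟨τ, hτ.trans hτ₀, 1728 * A ^ 3 / (A ^ 3 - 27 * B ^ 2), ?_⟩
  have hu : (C.u : ℂ) ≠ 0 := C.u.ne_zero
  have hAC : (A : ℂ) = (C.u : ℂ) ^ 4 * quotA p (latticeCurve L) Q := by
    rw [← quotA_vc hC hQ hQ0, AddEquiv.apply_symm_apply]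
    exact (((map_ratCast ι A).symm.trans (congrArg ι hA))).trans (quotA_map W ι P).symm
  have hBC : (B : ℂ) = (C.u : ℂ) ^ 6 * quotB p (latticeCurve L) Q := by
    rw [← quotB_vc hC hQ hQ0, AddEquiv.apply_symm_apply]
    exact (((map_ratCast ι B).symm.trans (congrArg ι hB))).trans (quotB_map W ι P).symm
  rw [kleinJ_mulH_eq, h2, h3]
  push_cast
  rw [hAC, hBC]
  set a := quotA p (latticeCurve L) Q
  set b := quotB p (latticeCurve L) Q
  rw [show (1728 : ℂ) * ((C.u : ℂ) ^ 4 * a) ^ 3 = (C.u : ℂ) ^ 12 * (1728 * a ^ 3) by ring,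
    show ((C.u : ℂ) ^ 4 * a) ^ 3 - 27 * ((C.u : ℂ) ^ 6 * b) ^ 2
      = (C.u : ℂ) ^ 12 * (a ^ 3 - 27 * b ^ 2) by ring,
    mul_div_mul_left _ _ (pow_ne_zero _ hu),
    show (1728 : ℂ) * ((c ^ 4)⁻¹ * a) ^ 3 = (c ^ 12)⁻¹ * (1728 * a ^ 3) by ring,
    show ((c ^ 4)⁻¹ * a) ^ 3 - 27 * ((c ^ 6)⁻¹ * b) ^ 2
      = (c ^ 12)⁻¹ * (a ^ 3 - 27 * b ^ 2) by ring,
    mul_div_mul_left _ _ (inv_ne_zero (pow_ne_zero _ hc))]

end Main

end Fermat.Agent.Mazur.Moduli
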