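import Fermat.Agent.Curve.Places
import Mathlib.RingTheory.LocalRing.LocalSubring
import Mathlib.RingTheory.DiscreteValuationRing.TFAE
import Mathlib.RingTheory.Polynomial.Basic
import Mathlib.RingTheory.Localization.Submodule
import Mathlib.Algebra.Polynomial.Bivariate
import Mathlib.FieldTheory.IntermediateField.Adjoin.Basic

/-!
# The place at a smooth point of a plane model

If `F = K(x, y)` and `(a, b)` is a point of the curve cut out by the relations between `x` and
`y` at which some relation has nonvanishing `Y`-derivative, then exactly one place has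
`ord (x - a) > 0` and `ord (y - b) > 0`.
-/

set_option autoImplicit false

noncomputable section

open Polynomial AlgebraicCurve

namespace Fermat.Agent.Mazur.Moduli

variable {K F : Type*} [Field K] [Field F] [Algebra K F]

/-- Evaluation at `(x, y)`. -/
def evalPair (x y : F) : Polynomial (Polynomial K) →+* F :=
  eval₂RingHom (aeval x).toRingHom y

lemma evalPair_C (x y : F) (r : Polynomial K) : evalPair x y (C r) = aeval x r := by
  simp [evalPair]

lemma evalPair_X (x y : F) : evalPair (K := K) x y X = y := by simp [evalPair]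

lemma exists_decomp (R : Polynomial (Polynomial K)) (a b : K) :
    ∃ (G : Polynomial (Polynomial K)) (H : Polynomial K),
      R = (X - C (C b)) * G + C ((X - C a) * H) + C (C (R.evalEval a b)) ∧
        G.evalEval a b = R.derivative.evalEval a b := by
  obtain ⟨G, hG⟩ := X_sub_C_dvd_sub_C_eval (a := C b) (p := R)
  obtain ⟨H, hH⟩ := X_sub_C_dvd_sub_C_eval (a := a) (p := R.eval (C b))
  refine ⟨G, H, ?_, ?_⟩
  · rw [← hG, ← hH, map_sub]
    rw [show (R.eval (C b)).eval a = R.evalEval a b from rfl]
    ring
  · have h : R.derivative = derivative ((X - C (C b)) * G + C (R.eval (C b))) := by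
      rw [← hG, sub_add_cancel]
    rw [h]
    simp [evalEval]

lemma mem_iff_exists_evalPair_div (x y : F)
    (hgen : IntermediateField.adjoin K ({x, y} : Set F) = ⊤) (z : F) :
    ∃ R S : Polynomial (Polynomial K), evalPair x y S ≠ 0 ∧
      z = evalPair x y R / evalPair x y S := by
  have hz : z ∈ IntermediateField.adjoin K ({x, y} : Set F) := by rw [hgen]; trivial
  induction hz using IntermediateField.adjoin_induction with
  | mem w hw =>
    rcases hw with rfl | rfl
    · exact ⟨C X, 1, by simp, by simp [evalPair_C]⟩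
    · exact ⟨X, 1, by simp, by simp [evalPair_X]⟩
  | algebraMap c => exact ⟨C (C c), 1, by simp, by simp [evalPair_C]⟩
  | add u v _ _ hu hv =>
    obtain ⟨R, S, hS, rfl⟩ := hu
    obtain ⟨R', S', hS', rfl⟩ := hv
    exact ⟨R * S' + S * R', S * S', by simp [hS, hS'], by simp [div_add_div _ _ hS hS']⟩
  | inv u _ hu =>
    obtain ⟨R, S, hS, rfl⟩ := hu
    rcases eq_or_ne (evalPair x y R) 0 with h0 | h0
    · exact ⟨0, 1, by simp, by simp [h0]⟩
    · exact ⟨S, R, h0, by rw [inv_div]⟩
  | mul u v _ _ hu hv =>
    obtain ⟨R, S, hS, rfl⟩ := hu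
    obtain ⟨R', S', hS', rfl⟩ := hv
    exact ⟨R * R', S * S', by simp [hS, hS'], by simp [div_mul_div_comm]⟩

/-- **The place at a smooth point.** -/
theorem existsUnique_place_smooth_point (x y : F) (a b : K)
    (hgen : IntermediateField.adjoin K ({x, y} : Set F) = ⊤)
    (hker : ∀ R : Polynomial (Polynomial K), evalPair x y R = 0 → R.evalEval a b = 0)
    (Φ : Polynomial (Polynomial K)) (hΦ : evalPair x y Φ = 0)
    (hsm : Φ.derivative.evalEval a b ≠ 0)
    (hxa : x ≠ algebraMap K F a) (hyb : y ≠ algebraMap K F b) :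
    ∃! P : Place K F, 0 < P.ord (x - algebraMap K F a) ∧ 0 < P.ord (y - algebraMap K F b) := by
  classical
  set f := evalPair (K := K) x y
  set e : Polynomial (Polynomial K) →+* K := evalEvalRingHom a b
  have he : ∀ R, e R = R.evalEval a b := fun R => rfl
  set fr : Polynomial (Polynomial K) →+* f.range := f.rangeRestrict
  have hfr : Function.Surjective fr := f.rangeRestrict_surjective
  set M : Ideal f.range := (RingHom.ker e).map fr with hM
  have hcomap : ∀ R, fr R ∈ M ↔ e R = 0 := by
    intro R
    rw [← Ideal.mem_comap, hM, Ideal.comap_map_of_surjective _ hfr,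
      sup_eq_left.2, RingHom.mem_ker]
    intro S hS
    rw [Ideal.mem_comap, Ideal.mem_bot] at hS
    exact (he S).trans (hker S (congrArg Subtype.val hS))
  have hMne : M ≠ ⊤ := by
    rw [Ideal.ne_top_iff_one, ← map_one fr, hcomap, map_one]
    exact one_ne_zero
  have hesurj : Function.Surjective e := fun c => ⟨C (C c), by simp [he]⟩
  have hMmax : M.IsMaximal := by
    have : (RingHom.ker e).IsMaximal := RingHom.ker_isMaximal_of_surjective e hesurj
    exact (Ideal.map_eq_top_or_isMaximal_of_surjective fr hfr this).resolve_left hMne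
  set R0 := LocalSubring.ofPrime f.range M
  have hle : f.range ≤ R0.toSubring := LocalSubring.le_ofPrime _ _
  have hNoeth : IsNoetherianRing f.range :=
    isNoetherianRing_of_surjective _ _ fr hfr
  have : IsNoetherianRing R0.toSubring :=
    IsLocalization.isNoetherianRing M.primeCompl _ hNoeth
  set am := algebraMap f.range R0.toSubring
  have ham : ∀ R, ((am (fr R) : R0.toSubring) : F) = f R := fun R => rfl
  have hunit : ∀ R, e R ≠ 0 → IsUnit (am (fr R)) := fun R hR =>
    IsLocalization.map_units R0.toSubring (⟨fr R, fun h => hR ((hcomap R).1 h)⟩ : M.primeCompl)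
  have hmax : IsLocalRing.maximalIdeal R0.toSubring = M.map am :=
    (IsLocalization.AtPrime.map_eq_maximalIdeal M R0.toSubring).symm
  set t : R0.toSubring := am (fr (C (X - C a)))
  have ht : (t : F) = x - algebraMap K F a := by simp [t, ham, f, evalPair_C]
  -- `y - b` is a multiple of `x - a`
  obtain ⟨G0, H0, hdec0, hG0⟩ := exists_decomp Φ a b
  rw [hker Φ hΦ, map_zero, map_zero, add_zero] at hdec0
  have hG0u : IsUnit (am (fr G0)) := hunit G0 (by rw [he, hG0]; exact hsm)
  have hty : am (fr (X - C (C b))) ∈ Ideal.span {t} := by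
    rw [Ideal.mem_span_singleton]
    refine (hG0u.dvd_mul_right (b := am (fr (X - C (C b))))).1 ⟨-am (fr (C H0)), ?_⟩
    apply Subtype.ext
    push_cast
    rw [ham, ham, ht, ham]
    have h := hΦ
    rw [hdec0, map_add, map_mul, evalPair_C, map_mul] at h
    simp only [f, evalPair_C] at h ⊢
    simp at h ⊢
    linear_combination h
  have hprinc : IsLocalRing.maximalIdeal R0.toSubring = Ideal.span {t} := by
    refine le_antisymm ?_ ?_
    · refine hmax.le.trans ?_
      change ((RingHom.ker e).map fr).map am ≤ _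
      rw [Ideal.map_map, Ideal.map_le_iff_le_comap]
      intro R hR
      obtain ⟨G, H, hdec, -⟩ := exists_decomp R a b
      rw [show R.evalEval a b = 0 from hR, map_zero, map_zero, add_zero, map_mul C] at hdec
      rw [Ideal.mem_comap, RingHom.comp_apply, hdec, map_add, map_add, map_mul, map_mul, map_mul,
        map_mul]
      exact Ideal.add_mem _ (Ideal.mul_mem_right _ _ hty)
        (Ideal.mul_mem_right _ _ (Ideal.mem_span_singleton_self t))
    · rw [Ideal.span_le, Set.singleton_subset_iff, hmax]
      exact Ideal.mem_map_of_mem _ ((hcomap _).2 (by simp [he, evalEval_C]))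
  have ht0 : t ≠ 0 := fun h => hxa (sub_eq_zero.1 (by rw [← ht, h]; rfl))
  have htm : t ∈ IsLocalRing.maximalIdeal R0.toSubring := by
    rw [hprinc]; exact Ideal.mem_span_singleton_self t
  have hnf : ¬IsField R0.toSubring := by
    rw [IsLocalRing.isField_iff_maximalIdeal_eq]
    intro h
    rw [h, Ideal.mem_bot] at htm
    exact ht0 htm
  have htfae := IsDiscreteValuationRing.TFAE R0.toSubring hnf
  have hdvr : IsDiscreteValuationRing R0.toSubring :=
    ((htfae.out 4 0 : (IsLocalRing.maximalIdeal R0.toSubring).IsPrincipal ↔ _)).1 ⟨⟨t, hprinc⟩⟩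
  have : ValuationRing R0.toSubring := ((htfae.out 4 1 : (IsLocalRing.maximalIdeal R0.toSubring).IsPrincipal ↔ _)).1 ⟨⟨t, hprinc⟩⟩
  have hval : ∀ z : F, z ∈ R0.toSubring ∨ z⁻¹ ∈ R0.toSubring := by
    intro z
    obtain ⟨R, S, hS, rfl⟩ := mem_iff_exists_evalPair_div x y hgen z
    rcases ValuationRing.dvd_total (am (fr S)) (am (fr R)) with ⟨c, hc⟩ | ⟨c, hc⟩
    · left
      have h : f R = f S * (c : F) := by rw [← ham, hc]; rfl
      rw [h, mul_div_cancel_left₀ _ hS]
      exact c.2
    · right
      have h : f S = f R * (c : F) := by rw [← ham, hc]; rfl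
      rcases eq_or_ne (f R) 0 with h0 | h0
      · rw [h0, zero_div, inv_zero]; exact zero_mem _
      · rw [inv_div, h, mul_div_cancel_left₀ _ h0]
        exact c.2
  let V : ValuationSubring F := { R0.toSubring with mem_or_inv_mem' := hval }
  have hVne : V ≠ ⊤ := by
    intro h
    have hmem : (x - algebraMap K F a)⁻¹ ∈ V := h ▸ ValuationSubring.mem_top _
    have : IsUnit t := IsUnit.of_mul_eq_one ⟨_, hmem⟩ (Subtype.ext (by
      show (t : F) * _ = 1
      rw [ht, mul_inv_cancel₀ (sub_ne_zero.2 hxa)]))
    exact (IsLocalRing.mem_maximalIdeal _).1 htm this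
  have hconst : ∀ c : K, algebraMap K F c ∈ R0.toSubring := fun c =>
    hle ⟨C (C c), by simp [f, evalPair_C]⟩
  let P : Place K F := ⟨V, hconst, hVne,
    inferInstanceAs (IsPrincipalIdealRing R0.toSubring)⟩
  have hord : ∀ r : R0.toSubring, r ∈ IsLocalRing.maximalIdeal R0.toSubring → (r : F) ≠ 0 →
      0 < P.ord (r : F) := by
    intro r hr hr0
    have hrP : (r : F) ∈ P.toValuationSubring := r.2
    rcases (Curve.ord_nonneg_of_mem P hrP).lt_or_eq with h | h
    · exact h
    · exfalso
      have hinv : (r : F)⁻¹ ∈ P.toValuationSubring :=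
        Curve.mem_of_ord_nonneg P (by rw [P.ord_inv, ← h]; rfl)
      have : IsUnit r :=
        IsUnit.of_mul_eq_one (⟨_, hinv⟩ : R0.toSubring) (Subtype.ext (mul_inv_cancel₀ hr0))
      exact (IsLocalRing.mem_maximalIdeal _).1 hr this
  have hy' : (am (fr (X - C (C b))) : F) = y - algebraMap K F b := by
    simp [ham, f, evalPair_C, evalPair_X]
  refine ⟨P, ⟨?_, ?_⟩, ?_⟩
  · rw [← ht]
    exact hord t htm (by rw [ht]; exact sub_ne_zero.2 hxa)
  · rw [← hy']
    exact hord _ (hprinc ▸ hty) (by rw [hy']; exact sub_ne_zero.2 hyb)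
  rintro Q ⟨hQx, hQy⟩
  have hsub : ∀ R : Polynomial (Polynomial K), f R ∈ Q.toValuationSubring := by
    have hx : x ∈ Q.toValuationSubring := by
      have := add_mem (Curve.mem_of_ord_nonneg Q hQx.le) (Q.algebraMap_mem' a)
      rwa [sub_add_cancel] at this
    have hy : y ∈ Q.toValuationSubring := by
      have := add_mem (Curve.mem_of_ord_nonneg Q hQy.le) (Q.algebraMap_mem' b)
      rwa [sub_add_cancel] at this
    intro R
    induction R using Polynomial.induction_on' with
    | add p q hp hq => rw [map_add]; exact add_mem hp hq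
    | monomial n c =>
      rw [← C_mul_X_pow_eq_monomial, map_mul, map_pow, evalPair_X, evalPair_C]
      refine mul_mem ?_ (pow_mem hy n)
      induction c using Polynomial.induction_on' with
      | add p q hp hq => rw [map_add]; exact add_mem hp hq
      | monomial m d =>
        rw [aeval_monomial]
        exact mul_mem (Q.algebraMap_mem' d) (pow_mem hx m)
  have hinvQ : ∀ S, e S ≠ 0 → (f S)⁻¹ ∈ Q.toValuationSubring := by
    intro S hS
    obtain ⟨G, H, hdec, -⟩ := exists_decomp S a b
    set u := f ((X - C (C b)) * G + C ((X - C a) * H)) with hu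
    have hfS : f S = u + algebraMap K F (S.evalEval a b) := by
      conv_lhs => rw [hdec]
      simp [hu, f, evalPair_C]
    have hu1 : Curve.OrdGE Q 1 u := by
      rw [hu, map_add, map_mul, evalPair_C, map_mul (aeval x)]
      refine Curve.OrdGE.add ?_ ?_
      · have h := Curve.OrdGE.mul (Curve.ordGE_of_le_ord (n := 1) (show 1 ≤ Q.ord (y - algebraMap K F b) from hQy))
          ((Curve.ordGE_zero_iff_mem Q).2 (hsub G))
        simpa [f, evalPair_C, evalPair_X] using h
      · have h := Curve.OrdGE.mul (Curve.ordGE_of_le_ord (n := 1) (show 1 ≤ Q.ord (x - algebraMap K F a) from hQx))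
          ((Curve.ordGE_zero_iff_mem Q).2 (evalPair_C (K := K) x y H ▸ hsub (C H)))
        simpa using h
    have hc : S.evalEval a b ≠ 0 := hS
    have hfS0 : f S ≠ 0 := fun h => hc (hker S h)
    refine Curve.mem_of_ord_nonneg Q ?_
    rw [Q.ord_inv, neg_nonneg]
    by_contra hpos
    push Not at hpos
    have h2 := (Curve.ordGE_of_le_ord (n := 1) (show 1 ≤ Q.ord (f S) from hpos)).sub hu1
    rw [hfS, add_sub_cancel_left] at h2
    have h3 := h2.le_ord ((_root_.map_ne_zero _).2 hc)
    rw [Curve.ord_algebraMap] at h3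
    omega
  have hR0Q : R0.toSubring ≤ Q.toValuationSubring.toSubring := by
    intro z hz
    obtain ⟨r, ⟨s, hs⟩, hrs⟩ := IsLocalization.exists_mk'_eq M.primeCompl (⟨z, hz⟩ : R0.toSubring)
    obtain ⟨R, rfl⟩ := hfr r
    obtain ⟨S, rfl⟩ := hfr s
    have hS : e S ≠ 0 := fun h => hs ((hcomap S).2 h)
    have hfS0 : f S ≠ 0 := fun h => hS (hker S h)
    have h := congrArg Subtype.val (IsLocalization.mk'_spec R0.toSubring (fr R)
      (⟨fr S, hs⟩ : M.primeCompl))
    rw [hrs] at h
    push_cast at h
    change z * f S = f R at h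
    rw [show z = f R * (f S)⁻¹ by rw [← h, mul_inv_cancel_right₀ hfS0]]
    exact mul_mem (hsub R) (hinvQ S hS)
  ext1
  exact (ValuationSubring.eq_of_le_of_ne_top (A := V) hR0Q Q.ne_top').symm

end Fermat.Agent.Mazur.Moduli
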