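import Fermat.Agent.Mazur.Moduli.Isogeny
import Fermat.Agent.Mazur.Moduli.ModularPoly
import Fermat.Agent.Mazur.Moduli.SmoothPoint
import Fermat.Agent.Mazur.Immersion.Forms
import Fermat.Agent.Modular.Genus
import Fermat.Agent.Curve.Degree

/-!
# The rational place of `X₀(p)` attached to a Galois stable subgroup of order `p`

If `ℓ` is a prime at which `j` is not integral, the point lies in the residue disc of the cusp
`∞` at `ℓ`, possibly after the Fricke involution.
-/

set_option autoImplicit false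

noncomputable section

open Polynomial UpperHalfPlane ModularCurve AlgebraicCurve
open Fermat.Agent.Modular Fermat.Agent.Mazur.Immersion
open scoped MatrixGroups WeierstrassCurve.Affine

namespace Fermat.Agent.Mazur.Moduli

local notation "Qbar" => AlgebraicClosure ℚ

variable {p : ℕ} [hp : Fact p.Prime]

/-- Evaluation of bivariate polynomials commutes with ring maps. -/
lemma map_evalEval {A B : Type*} [CommRing A] [CommRing B] (φ : A →+* B)
    (R : Polynomial (Polynomial A)) (a b : A) :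
    φ (R.evalEval a b) = (R.map (mapRingHom φ)).evalEval (φ a) (φ b) :=
  (Polynomial.map_mapRingHom_evalEval φ R a b).symm

lemma adjoin_jL_jdL : IntermediateField.adjoin Qbar
    ({jL p Qbar, jdL p Qbar dvd_rfl} : Set (FL p Qbar)) = ⊤ := by
  have : Algebra.IsAlgebraic ℚ Qbar := AlgebraicClosure.isAlgebraic ℚ
  let ι : Qbar →ₐ[ℚ] ℂ := IsAlgClosed.lift
  apply IntermediateField.map_injective (FL p Qbar).val
  rw [IntermediateField.adjoin_map, ← AlgHom.fieldRange_eq_map, IntermediateField.fieldRange_val,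
    Set.image_pair]
  exact (FL_eq_adjoin p ι.toRingHom).symm

lemma coe_evalPair (R : Polynomial (Polynomial Qbar)) :
    (evalPair (jL p Qbar) (jdL p Qbar dvd_rfl) R : LaurentSeries Qbar)
      = R.eval₂ (aeval (serJ Qbar)).toRingHom (serJd Qbar p) := by
  rw [evalPair, coe_eval₂RingHom, coe_eval₂_FL]

lemma evalPair_eq_zero_iff (ι : Qbar →+* ℂ) (R : Polynomial (Polynomial Qbar)) :
    evalPair (jL p Qbar) (jdL p Qbar dvd_rfl) R = 0 ↔
      ∀ z, (R.map (mapRingHom ι)).evalEval (kleinJ z) (jLevel p z) = 0 := by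
  rw [← relation_iff, ← coeffMap_serJd ι p, ← coeffMap_serJ ι, ← coeffMap_eval₂,
    map_eq_zero_iff _ (coeffMap ι).injective, ← coe_evalPair]
  exact ⟨fun h => by rw [h]; rfl, fun h => Subtype.ext h⟩

lemma jdL_ne_algebraMap (c : Qbar) : jdL p Qbar dvd_rfl ≠ algebraMap Qbar (FL p Qbar) c := by
  intro h
  have : Algebra.IsAlgebraic ℚ Qbar := AlgebraicClosure.isAlgebraic ℚ
  let ι : Qbar →ₐ[ℚ] ℂ := IsAlgClosed.lift
  have hR := eval₂_jL_eq_zero p ι.toRingHom (R := X - C (C c))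
    (by rw [natDegree_X_sub_C, dedekindPsi_of_prime hp.out]; exact Nat.lt_add_of_pos_left hp.out.pos)
    (by simp [h])
  exact X_sub_C_ne_zero _ hR

lemma arithmeticGalois_smul_coeffEmb (σ : Qbar ≃ₐ[ℚ] Qbar) (x : FL p Qbar) {y : LaurentSeries ℚ}
    (hx : (x : LaurentSeries Qbar) = coeffEmb Qbar y) :
    arithmeticGalois (modularFunctionFieldFull p) σ • x = x := by
  apply Subtype.ext
  rw [SemilinearAut.smul_def, toRingAut_arithmeticGalois, coe_arithmeticRingAut_apply, hx,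
    coeffEmb, coeffMap_coeffMap]
  exact coeffMap_congr (RingHom.ext fun c => σ.commutes c) y

/-- A rational smooth point of the plane model gives a rational place. -/
theorem exists_place_of_point {Φ : Polynomial (Polynomial ℤ)} (hΦ : IsModularShape p Φ)
    {τ : ℍ} {a b : ℚ} (ha : kleinJ τ = (a : ℂ)) (hb : kleinJ (mulH p τ) = (b : ℂ))
    (hsm : ((Φ.map (mapRingHom (Int.castRingHom ℚ))).derivative).evalEval a b ≠ 0) :
    ∃ P : Place Qbar (modularFunctionFieldBar p),
      (∀ σ : Qbar ≃ₐ[ℚ] Qbar, arithmeticGalois (modularFunctionFieldFull p) σ • P = P) ∧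
      0 < P.ord (jBar p - algebraMap Qbar _ (algebraMap ℚ _ a)) ∧
      0 < P.ord (jNBar p - algebraMap Qbar _ (algebraMap ℚ _ b)) := by
  have : Algebra.IsAlgebraic ℚ Qbar := AlgebraicClosure.isAlgebraic ℚ
  let ι' : Qbar →ₐ[ℚ] ℂ := IsAlgClosed.lift
  let ι : Qbar →+* ℂ := ι'.toRingHom
  set A : Qbar := algebraMap ℚ Qbar a
  set B : Qbar := algebraMap ℚ Qbar b
  have hιA : ι A = (a : ℂ) := (ι'.commutes a).trans (eq_ratCast _ a)
  have hιB : ι B = (b : ℂ) := (ι'.commutes b).trans (eq_ratCast _ b)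
  set Φb : Polynomial (Polynomial Qbar) := Φ.map (mapRingHom (Int.castRingHom Qbar))
  have hΦ0 : evalPair (jL p Qbar) (jdL p Qbar dvd_rfl) Φb = 0 := by
    rw [evalPair_eq_zero_iff ι]
    intro z
    rw [Polynomial.map_map, mapRingHom_comp, RingHom.ext_int (ι.comp _) (Int.castRingHom ℂ)]
    exact hΦ.eval_kleinJ z
  have hker : ∀ R, evalPair (jL p Qbar) (jdL p Qbar dvd_rfl) R = 0 → R.evalEval A B = 0 := by
    intro R hR
    apply ι.injective
    rw [map_evalEval, hιA, hιB, map_zero, ← ha, ← hb]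
    exact (evalPair_eq_zero_iff ι R).1 hR τ
  have hsm' : Φb.derivative.evalEval A B ≠ 0 := by
    intro h
    apply hsm
    apply (algebraMap ℚ Qbar).injective
    rw [map_evalEval, ← derivative_map, Polynomial.map_map, mapRingHom_comp,
      RingHom.ext_int ((algebraMap ℚ Qbar).comp _) (Int.castRingHom Qbar), map_zero]
    exact h
  have hxa : jL p Qbar ≠ algebraMap Qbar (FL p Qbar) A := fun h =>
    transcendental_jL p ι (h ▸ isAlgebraic_algebraMap A)
  obtain ⟨P, ⟨hPa, hPb⟩, huniq⟩ := existsUnique_place_smooth_point (jL p Qbar)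
    (jdL p Qbar dvd_rfl) A B adjoin_jL_jdL hker Φb hΦ0 hsm' hxa (jdL_ne_algebraMap B)
  refine ⟨P, fun σ => ?_, hPa, hPb⟩
  set g := arithmeticGalois (modularFunctionFieldFull p) σ
  have hfix : ∀ (x : FL p Qbar) (y : LaurentSeries ℚ) (c : ℚ),
      (x : LaurentSeries Qbar) = coeffEmb Qbar y →
        g • (x - algebraMap Qbar (FL p Qbar) (algebraMap ℚ Qbar c))
          = x - algebraMap Qbar (FL p Qbar) (algebraMap ℚ Qbar c) := by
    intro x y c hx
    rw [smul_sub, arithmeticGalois_smul_coeffEmb σ x hx, SemilinearAut.smul_algebraMap,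
      baseAut_arithmeticGalois]
    exact congrArg (fun e => x - algebraMap Qbar (FL p Qbar) e) (σ.commutes c)
  refine huniq _ ⟨?_, ?_⟩
  · rw [← hfix (jL p Qbar) jq a rfl, SemilinearAut.ord_smul]
    exact hPa
  · rw [← hfix (jdL p Qbar dvd_rfl) _ b rfl, SemilinearAut.ord_smul]
    exact hPb

lemma kleinJ_fricke (τ : ℍ) :
    kleinJ (ModularGroup.S • mulH p τ) = kleinJ (mulH p τ) ∧
      kleinJ (mulH p (ModularGroup.S • mulH p τ)) = kleinJ τ := by
  refine ⟨kleinJ_smul _ _, ?_⟩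
  have h : mulH p (ModularGroup.S • mulH p τ) = ModularGroup.S • τ := by
    ext1
    rw [coe_mulH, UpperHalfPlane.modular_S_smul, UpperHalfPlane.modular_S_smul]
    have h0 : (τ : ℂ) ≠ 0 := τ.ne_zero
    have hp0 : (p : ℂ) ≠ 0 := Nat.cast_ne_zero.2 hp.out.ne_zero
    simp only [coe_mk, coe_mulH]
    field_simp
  rw [h, kleinJ_smul]

lemma one_lt_padicNorm_iff (ℓ : ℕ) [hl : Fact ℓ.Prime] (x : ℚ) :
    1 < padicNorm ℓ x ↔ padicValRat ℓ x < 0 := by
  rcases eq_or_ne x 0 with rfl | hx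
  · simp
  rw [padicNorm.eq_zpow_of_nonzero hx, one_lt_zpow_iff_right₀ (by exact_mod_cast hl.out.one_lt)]
  omega

lemma padicValRat_eq_mul_of_norm_eq_pow (ℓ : ℕ) [hl : Fact ℓ.Prime] {x y : ℚ} (hx : x ≠ 0)
    (hy : y ≠ 0) (n : ℕ) (h : padicNorm ℓ y = padicNorm ℓ x ^ n) :
    padicValRat ℓ y = n * padicValRat ℓ x := by
  rw [padicNorm.eq_zpow_of_nonzero hx, padicNorm.eq_zpow_of_nonzero hy, ← zpow_natCast,
    ← zpow_mul] at h
  have := zpow_right_injective₀ (by exact_mod_cast hl.out.pos) (by exact_mod_cast hl.out.ne_one) h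
  linarith

open scoped Classical in
/-- **The moduli glue.**  A Galois stable subgroup of order `p` and a prime `ℓ` at which `j` is
not integral give a rational place in the disc of `∞` at `ℓ`. -/
theorem exists_x0_place (W : WeierstrassCurve ℚ) [W.IsElliptic]
    (Q : (W⁄Qbar).Point) (hQ : p • Q = 0) (hQ0 : Q ≠ 0)
    (hσ : ∀ σ : Qbar ≃ₐ[ℚ] Qbar, ∃ k : ℕ, σ • Q = k • Q)
    (ℓ : ℕ) [hl : Fact ℓ.Prime] (hv : padicValRat ℓ W.j < 0) :
    ∃ (P : Place Qbar (modularFunctionFieldBar p)) (a b : ℚ),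
      (∀ σ : Qbar ≃ₐ[ℚ] Qbar, arithmeticGalois (modularFunctionFieldFull p) σ • P = P) ∧
      0 < P.ord (jBar p - algebraMap Qbar _ (algebraMap ℚ _ a)) ∧
      0 < P.ord (jNBar p - algebraMap Qbar _ (algebraMap ℚ _ b)) ∧
      padicValRat ℓ a < 0 ∧ padicValRat ℓ b = p * padicValRat ℓ a := by
  obtain ⟨Φ, hΦ⟩ := exists_isModularShape (p := p)
  obtain ⟨τ, ha, b, hb⟩ := exists_tau_quotient_rational W Q hQ hQ0 hσ
  set a := W.j
  have hzero : ∀ {τ : ℍ} {a b : ℚ}, kleinJ τ = (a : ℂ) → kleinJ (mulH p τ) = (b : ℂ) →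
      (Φ.map (mapRingHom (Int.castRingHom ℚ))).evalEval a b = 0 := by
    intro τ a b ha hb
    apply (algebraMap ℚ ℂ).injective
    rw [map_evalEval, Polynomial.map_map, mapRingHom_comp,
      RingHom.ext_int ((algebraMap ℚ ℂ).comp _) (Int.castRingHom ℂ), map_zero, eq_ratCast,
      eq_ratCast, ← ha, ← hb]
    exact hΦ.eval_kleinJ τ
  have ha1 := (one_lt_padicNorm_iff ℓ a).2 hv
  have hne : ∀ {x : ℚ}, padicValRat ℓ x < 0 → x ≠ 0 := fun h h0 => by simp [h0] at h
  obtain ⟨hb1, hcases⟩ := hΦ.padic_dichotomy ℓ ha1 (hzero ha hb)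
  have hvb := (one_lt_padicNorm_iff ℓ b).1 hb1
  rcases hcases with ⟨hB, hsm⟩ | hA
  · obtain ⟨P, hfix, hPa, hPb⟩ := exists_place_of_point hΦ ha hb hsm
    exact ⟨P, a, b, hfix, hPa, hPb, hv,
      padicValRat_eq_mul_of_norm_eq_pow ℓ (hne hv) (hne hvb) p hB⟩
  · obtain ⟨e1, e2⟩ := kleinJ_fricke (p := p) τ
    have ha' := e1.trans hb
    have hb' := e2.trans ha
    obtain ⟨-, hcases⟩ := hΦ.padic_dichotomy ℓ hb1 (hzero ha' hb')
    rcases hcases with ⟨-, hsm⟩ | hA'
    · obtain ⟨P, hfix, hPa, hPb⟩ := exists_place_of_point hΦ ha' hb' hsm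
      exact ⟨P, b, a, hfix, hPa, hPb, hvb,
        padicValRat_eq_mul_of_norm_eq_pow ℓ (hne hvb) (hne hv) p hA⟩
    · exfalso
      have h1 := padicValRat_eq_mul_of_norm_eq_pow ℓ (hne hvb) (hne hv) p hA
      have h2 := padicValRat_eq_mul_of_norm_eq_pow ℓ (hne hv) (hne hvb) p hA'
      have h3 : (2 : ℤ) ≤ p := by exact_mod_cast hp.out.two_le
      nlinarith [mul_lt_mul_of_neg_right (show (1 : ℤ) < p by omega) hvb,
        mul_lt_mul_of_neg_right (show (1 : ℤ) < p by omega) hv]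

end Fermat.Agent.Mazur.Moduli
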