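import Mathlib.Analysis.SpecialFunctions.Elliptic.Weierstrass
import Mathlib.Analysis.Analytic.IsolatedZeros
import Mathlib.Analysis.Calculus.MeanValue
import Mathlib.Analysis.Normed.Module.Connected
import Mathlib.Analysis.Complex.CauchyIntegral
import Mathlib.AlgebraicGeometry.EllipticCurve.Affine.Point
import Mathlib.Tactic.LinearCombination

/-!
# The addition theorem for the Weierstrass `℘`-function

For a lattice `L`, `z ↦ (℘ z, ℘' z / 2)` is a group homomorphism from `ℂ` to the points of
`y² = x³ - (g₂/4) x - g₃/4` with kernel `L`.  The addition formula is proved by showing that the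
right hand side is constant on every line `z + w = s` and computing its limit at `z = 0`.
-/

set_option autoImplicit false

noncomputable section

open WeierstrassCurve Filter Topology
open scoped Classical

namespace Fermat.Agent.Mazur.Moduli

variable (L : PeriodPair)

/-- The curve `y² = x³ - (g₂/4) x - g₃/4`. -/
def latticeCurve : WeierstrassCurve ℂ := ⟨0, 0, 0, -L.g₂ / 4, -L.g₃ / 4⟩

/-- `℘'/2`. -/
def yCoord (z : ℂ) : ℂ := L.derivWeierstrassP z / 2

lemma yCoord_sq {z : ℂ} (hz : z ∉ L.lattice) :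
    yCoord L z ^ 2 = L.weierstrassP z ^ 3 + (-L.g₂ / 4) * L.weierstrassP z + (-L.g₃ / 4) := by
  have := L.derivWeierstrassP_sq z hz
  rw [yCoord]
  linear_combination this / 4

lemma latticeCurve_equation {z : ℂ} (hz : z ∉ L.lattice) :
    (latticeCurve L).toAffine.Equation (L.weierstrassP z) (yCoord L z) := by
  rw [Affine.equation_iff]
  simp only [latticeCurve]
  linear_combination yCoord_sq L hz

lemma countable_lattice : (L.lattice : Set ℂ).Countable := by
  refine Set.countable_coe_iff.1 ?_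
  exact countable_of_Lindelof_of_discrete (X := L.lattice)

lemma countable_shift (s : Set ℂ) (hs : s.Countable) (a : ℂ) : {z : ℂ | a + z ∈ s}.Countable :=
  hs.preimage (add_right_injective a)

lemma countable_reflect (s : Set ℂ) (hs : s.Countable) (a : ℂ) : {z : ℂ | a - z ∈ s}.Countable :=
  hs.preimage (sub_right_injective (b := a))

lemma isPreconnected_compl_countable {s : Set ℂ} (hs : s.Countable) : IsPreconnected sᶜ :=
  (hs.isPathConnected_compl_of_one_lt_rank (by rw [Complex.rank_real_complex]; norm_num)).isConnected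
    |>.isPreconnected

lemma nonempty_compl_countable {s : Set ℂ} (hs : s.Countable) : sᶜ.Nonempty :=
  (hs.dense_compl ℝ).nonempty

lemma countable_zeros {f : ℂ → ℂ} {U : Set ℂ} (hf : AnalyticOnNhd ℂ f U) (hU : IsPreconnected U)
    (hne : ∃ x ∈ U, f x ≠ 0) : {z | z ∈ U ∧ f z = 0}.Countable := by
  obtain ⟨x, hx, hfx⟩ := hne
  set Z := {z | z ∈ U ∧ f z = 0} with hZ
  have : DiscreteTopology Z := by
    rw [discreteTopology_subtype_iff]
    intro z hz
    have hev : ∀ᶠ w in 𝓝[≠] z, f w ≠ 0 := by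
      by_contra hcon
      rw [not_eventually] at hcon
      exact hfx (hf.eqOn_zero_of_preconnected_of_frequently_eq_zero hU hz.1
        (hcon.mono fun w hw => not_not.1 hw) hx)
    rw [← empty_mem_iff_bot, mem_inf_principal]
    filter_upwards [hev] with w hw hwZ
    exact (hw hwZ.2).elim
  exact Set.countable_coe_iff.1 (countable_of_Lindelof_of_discrete (X := Z))

lemma hasDerivAt_weierstrassP {z : ℂ} (hz : z ∉ L.lattice) :
    HasDerivAt L.weierstrassP (2 * yCoord L z) z := by
  have h := (L.analyticOnNhd_weierstrassP z hz).differentiableAt.hasDerivAt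
  rw [L.deriv_weierstrassP] at h
  convert! h using 1
  simp only [yCoord]; ring

lemma continuousAt_weierstrassP {z : ℂ} (hz : z ∉ L.lattice) : ContinuousAt L.weierstrassP z :=
  (hasDerivAt_weierstrassP L hz).continuousAt

lemma continuousAt_yCoord {z : ℂ} (hz : z ∉ L.lattice) : ContinuousAt (yCoord L) z :=
  ((L.analyticOnNhd_derivWeierstrassP z hz).continuousAt).div_const 2

lemma eventually_notMem_lattice {z : ℂ} (hz : z ∉ L.lattice) : ∀ᶠ w in 𝓝 z, w ∉ L.lattice :=
  L.isClosed_lattice.isOpen_compl.mem_nhds hz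

lemma eventually_punctured_notMem_lattice (z : ℂ) : ∀ᶠ w in 𝓝[≠] z, w ∉ L.lattice := by
  filter_upwards [mem_nhdsWithin_of_mem_nhds (L.compl_lattice_sdiff_singleton_mem_nhds z),
    self_mem_nhdsWithin] with w hw hne hmem
  exact hw ⟨hmem, hne⟩

lemma tendsto_sq_mul_weierstrassP :
    Tendsto (fun z => z ^ 2 * L.weierstrassP z) (𝓝[≠] 0) (𝓝 1) := by
  have h : ContinuousAt (fun z => z ^ 2 * L.weierstrassPExcept 0 z + 1) 0 := by
    have := (L.analyticAt_weierstrassPExcept 0).continuousAt
    fun_prop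
  have h' := (h.tendsto.mono_left nhdsWithin_le_nhds : Tendsto _ (𝓝[≠] (0 : ℂ)) _)
  simp only [ne_eq, OfNat.ofNat_ne_zero, not_false_eq_true, zero_pow, zero_mul, zero_add] at h'
  refine h'.congr' ?_
  filter_upwards [self_mem_nhdsWithin] with z hz
  have := L.ite_eq_one_sub_sq_mul_weierstrassP 0 L.lattice.zero_mem z
  rw [if_neg (show ¬ z = 0 from hz)] at this
  simpa using this.symm

lemma tendsto_cube_mul_yCoord :
    Tendsto (fun z => z ^ 3 * yCoord L z) (𝓝[≠] 0) (𝓝 (-1)) := by
  have h : ContinuousAt (fun z => (z ^ 3 * L.derivWeierstrassPExcept 0 z - 2) / 2) 0 := by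
    have := (L.analyticAt_derivWeierstrassPExcept 0).continuousAt
    fun_prop
  have h' := (h.tendsto.mono_left nhdsWithin_le_nhds : Tendsto _ (𝓝[≠] (0 : ℂ)) _)
  simp only [ne_eq, OfNat.ofNat_ne_zero, not_false_eq_true, zero_pow, zero_mul, zero_sub,
    neg_div, div_self] at h'
  refine h'.congr' ?_
  filter_upwards [self_mem_nhdsWithin] with z hz
  have hz : z ≠ 0 := hz
  have := L.derivWeierstrassPExcept_sub (⟨0, L.lattice.zero_mem⟩) z
  simp only [sub_zero] at this
  rw [yCoord, ← this]
  field_simp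

/-- The slope of the chord. -/
def chordSlope (z w : ℂ) : ℂ :=
  (yCoord L z - yCoord L w) / (L.weierstrassP z - L.weierstrassP w)

/-- The `x`-coordinate of the sum. -/
def chordX (z w : ℂ) : ℂ := chordSlope L z w ^ 2 - L.weierstrassP z - L.weierstrassP w

lemma mul_deriv_weierstrassP_eq_zero {z : ℂ} (hz : z ∉ L.lattice) :
    (deriv (yCoord L) z - (3 * L.weierstrassP z ^ 2 + -L.g₂ / 4)) * yCoord L z = 0 := by
  have h1 : HasDerivAt (fun w => yCoord L w ^ 2) (2 * yCoord L z * deriv (yCoord L) z) z := by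
    have hd : HasDerivAt (yCoord L) (deriv (yCoord L) z) z :=
      (((L.analyticOnNhd_derivWeierstrassP z hz).div analyticAt_const two_ne_zero)
        ).differentiableAt.hasDerivAt
    simpa using hd.fun_pow 2
  have h2 : HasDerivAt (fun w => L.weierstrassP w ^ 3 + (-L.g₂ / 4) * L.weierstrassP w + (-L.g₃ / 4))
      ((3 * L.weierstrassP z ^ 2 + -L.g₂ / 4) * (2 * yCoord L z)) z := by
    have hd := hasDerivAt_weierstrassP L hz
    convert! ((hd.fun_pow 3).add (hd.const_mul (-L.g₂ / 4))).add_const (-L.g₃ / 4) using 1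
    norm_num; ring
  have h3 := (h1.congr_of_eventuallyEq
    (by filter_upwards [eventually_notMem_lattice L hz] with w hw using (yCoord_sq L hw).symm)).unique h2
  linear_combination h3 / 2

lemma hasDerivAt_yCoord {z : ℂ} (hz : z ∉ L.lattice) :
    HasDerivAt (yCoord L) (3 * L.weierstrassP z ^ 2 + -L.g₂ / 4) z := by
  set U : Set ℂ := (L.lattice : Set ℂ)ᶜ with hU
  have hy : AnalyticOnNhd ℂ (yCoord L) U := fun w hw =>
    (L.analyticOnNhd_derivWeierstrassP w hw).div analyticAt_const two_ne_zero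
  have hg : AnalyticOnNhd ℂ
      (fun w => deriv (yCoord L) w - (3 * L.weierstrassP w ^ 2 + -L.g₂ / 4)) U := fun w hw => by
    have h1 := hy.deriv w hw
    have h2 := L.analyticOnNhd_weierstrassP w hw
    fun_prop
  have hpre : IsPreconnected U := isPreconnected_compl_countable (countable_lattice L)
  rcases hg.eq_zero_or_eq_zero_of_mul_eq_zero hy
    (fun w hw => mul_deriv_weierstrassP_eq_zero L hw) hpre with h | h
  · have := (hy z hz).differentiableAt.hasDerivAt
    rwa [sub_eq_zero.1 (h z hz)] at this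
  · exfalso
    have ev : ∀ᶠ w in 𝓝[≠] (0 : ℂ), w ^ 3 * yCoord L w = 0 := by
      filter_upwards [eventually_punctured_notMem_lattice L 0] with w hw
      rw [h w hw, mul_zero]
    have := tendsto_nhds_unique (tendsto_cube_mul_yCoord L)
      (tendsto_const_nhds.congr' (ev.mono fun w hw => hw.symm))
    norm_num at this

lemma hasDerivAt_chord {z w : ℂ} (hz : z ∉ L.lattice) (hw : w ∉ L.lattice)
    (hne : L.weierstrassP z ≠ L.weierstrassP w) :
    HasDerivAt (fun t => chordX L t (z + w - t)) 0 z := by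
  have hw' : z + w - z = w := by ring
  have hx1 := hasDerivAt_weierstrassP L hz
  have hy1 := hasDerivAt_yCoord L hz
  have hx2 := HasDerivAt.comp z (hw'.symm ▸ hasDerivAt_weierstrassP L hw)
    ((hasDerivAt_id z).const_sub (z + w))
  have hy2 := HasDerivAt.comp z (hw'.symm ▸ hasDerivAt_yCoord L hw)
    ((hasDerivAt_id z).const_sub (z + w))
  have hd : L.weierstrassP z - (L.weierstrassP ∘ fun t => z + w - id t) z ≠ 0 := by
    simpa [sub_eq_zero] using hne
  have hm := ((hy1.sub hy2).div (hx1.sub hx2) hd)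
  have := ((hm.fun_pow 2).sub hx1).sub hx2
  convert! this using 1
  simp only [Function.comp_apply, id_eq, hw', Pi.sub_apply, Pi.div_apply, Nat.cast_ofNat,
    Nat.add_one_sub_one, pow_one]
  have e1 := yCoord_sq L hz
  have e2 := yCoord_sq L hw
  have hne' : L.weierstrassP z - L.weierstrassP w ≠ 0 := sub_ne_zero.2 hne
  field_simp
  linear_combination (16 : ℂ) * (yCoord L z - yCoord L w) * (e1 - e2)

lemma tendsto_chordX {s : ℂ} (hs : s ∉ L.lattice) :
    Tendsto (fun t => chordX L t (s - t)) (𝓝[≠] 0) (𝓝 (L.weierstrassP s)) := by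
  set a : ℂ := -L.g₂ / 4
  set b : ℂ := -L.g₃ / 4
  have hu := tendsto_sq_mul_weierstrassP L
  have hv := tendsto_cube_mul_yCoord L
  have ht : Tendsto (fun t : ℂ => t) (𝓝[≠] (0 : ℂ)) (𝓝 0) := tendsto_nhdsWithin_of_tendsto_nhds tendsto_id
  have hst : Tendsto (fun t : ℂ => s - t) (𝓝[≠] (0 : ℂ)) (𝓝 s) := by
    simpa using ht.const_sub s
  have hc : Tendsto (fun t => L.weierstrassP (s - t)) (𝓝[≠] (0 : ℂ)) (𝓝 (L.weierstrassP s)) :=
    (continuousAt_weierstrassP L hs).tendsto.comp hst
  have hd : Tendsto (fun t => yCoord L (s - t)) (𝓝[≠] (0 : ℂ)) (𝓝 (yCoord L s)) :=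
    (continuousAt_yCoord L hs).tendsto.comp hst
  have hden : Tendsto (fun t => (t ^ 2 * L.weierstrassP t - L.weierstrassP (s - t) * t ^ 2) ^ 2)
      (𝓝[≠] (0 : ℂ)) (𝓝 1) := by
    simpa using (hu.sub (hc.mul (ht.pow 2))).pow 2
  have hnum : Tendsto (fun t =>
      L.weierstrassP (s - t) * (t ^ 2 * L.weierstrassP t) ^ 2
        + (a + L.weierstrassP (s - t) ^ 2) * (t ^ 2 * L.weierstrassP t) * t ^ 2
        + (b - L.weierstrassP (s - t) ^ 3 + yCoord L (s - t) ^ 2) * t ^ 4
        - 2 * (t ^ 3 * yCoord L t) * t * yCoord L (s - t))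
      (𝓝[≠] (0 : ℂ)) (𝓝 (L.weierstrassP s)) := by
    have h1 := hc.mul (hu.pow 2)
    have h2 := (((tendsto_const_nhds (x := a)).add (hc.pow 2)).mul hu).mul (ht.pow 2)
    have h3 := (((tendsto_const_nhds (x := b)).sub (hc.pow 3)).add (hd.pow 2)).mul (ht.pow 4)
    have h4 := ((hv.const_mul 2).mul ht).mul hd
    simpa using ((h1.add h2).add h3).sub h4
  have := hnum.div hden one_ne_zero
  rw [div_one] at this
  refine this.congr' ?_
  filter_upwards [self_mem_nhdsWithin, eventually_punctured_notMem_lattice L 0,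
    hden.eventually_ne one_ne_zero] with t ht0 htL hden0
  have e1 := yCoord_sq L htL
  have hdd : L.weierstrassP t - L.weierstrassP (s - t) ≠ 0 := by
    intro h
    rw [sub_eq_zero] at h
    rw [h] at hden0
    exact hden0 (by ring)
  have ht0 : t ≠ 0 := ht0
  simp only [Pi.div_apply, chordX, chordSlope]
  rw [show t ^ 2 * L.weierstrassP t - L.weierstrassP (s - t) * t ^ 2
    = t ^ 2 * (L.weierstrassP t - L.weierstrassP (s - t)) by ring]
  field_simp
  linear_combination (-1 : ℂ) * e1

/-- The domain where `z` and `s - z` are outside the lattice. -/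
lemma isOpen_good (s : ℂ) :
    IsOpen (((L.lattice : Set ℂ) ∪ {z | s - z ∈ (L.lattice : Set ℂ)})ᶜ) := by
  rw [Set.compl_union]
  exact L.isClosed_lattice.isOpen_compl.inter
    ((L.isClosed_lattice.preimage (continuous_const.sub continuous_id)).isOpen_compl)

lemma chordX_eq {z w : ℂ} (hz : z ∉ L.lattice) (hw : w ∉ L.lattice) (hzw : z + w ∉ L.lattice)
    (hne : L.weierstrassP z ≠ L.weierstrassP w) :
    chordX L z w = L.weierstrassP (z + w) := by
  set s := z + w
  set B : Set ℂ := (L.lattice : Set ℂ) ∪ {t | s - t ∈ (L.lattice : Set ℂ)} with hB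
  have hBc : B.Countable :=
    (countable_lattice L).union (countable_reflect _ (countable_lattice L) s)
  set f : ℂ → ℂ := fun t => L.weierstrassP t - L.weierstrassP (s - t) with hf
  have hfa : AnalyticOnNhd ℂ f Bᶜ := fun t ht => by
    simp only [hB, Set.compl_union, Set.mem_inter_iff, Set.mem_compl_iff, Set.mem_ofPred_eq] at ht
    have h1 := L.analyticOnNhd_weierstrassP t ht.1
    have h2 := (L.analyticOnNhd_weierstrassP (s - t) ht.2).comp
      (f := fun u => s - u) (by fun_prop)
    exact h1.sub h2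
  have hzB : z ∈ Bᶜ := by
    simp only [hB, Set.compl_union, Set.mem_inter_iff, Set.mem_compl_iff, Set.mem_ofPred_eq,
      SetLike.mem_coe]
    exact ⟨hz, by simpa [s] using hw⟩
  have hfz : f z ≠ 0 := by simpa [hf, s, sub_eq_zero] using hne
  have hZ := countable_zeros hfa (isPreconnected_compl_countable hBc) ⟨z, hzB, hfz⟩
  set V : Set ℂ := (B ∪ {t | t ∈ Bᶜ ∧ f t = 0})ᶜ with hV
  have hVeq : V = Bᶜ ∩ f ⁻¹' {0}ᶜ := by
    ext t; simp [hV]; tauto
  have hVo : IsOpen V := by
    rw [hVeq]
    exact hfa.continuousOn.isOpen_inter_preimage (isOpen_good L s) isOpen_compl_singleton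
  have hVp : IsPreconnected V := isPreconnected_compl_countable (hBc.union hZ)
  have hder : ∀ t ∈ V, HasDerivAt (fun u => chordX L u (s - u)) 0 t := by
    intro t ht
    rw [hVeq] at ht
    simp only [hB, Set.compl_union, Set.mem_inter_iff, Set.mem_compl_iff, Set.mem_ofPred_eq,
      SetLike.mem_coe, Set.mem_preimage, Set.mem_singleton_iff, hf, sub_eq_zero] at ht
    have := hasDerivAt_chord L (z := t) (w := s - t) ht.1.1 ht.1.2 ht.2
    simpa using this
  obtain ⟨c, hc⟩ := hVo.exists_is_const_of_deriv_eq_zero hVp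
    (fun t ht => (hder t ht).differentiableAt.differentiableWithinAt)
    (fun t ht => (hder t ht).deriv)
  have hzV : z ∈ V := by rw [hVeq]; exact ⟨hzB, hfz⟩
  have hev : ∀ᶠ t in 𝓝[≠] (0 : ℂ), chordX L t (s - t) = c := by
    have h1 := eventually_punctured_notMem_lattice L 0
    have h2 : ∀ᶠ t in 𝓝[≠] (0 : ℂ), s - t ∉ L.lattice := by
      refine (show Tendsto (fun t : ℂ => s - t) (𝓝[≠] (0 : ℂ)) (𝓝 s) from ?_).eventually (eventually_notMem_lattice L hzw)
      exact tendsto_nhdsWithin_of_tendsto_nhds (Continuous.tendsto' (by fun_prop) _ _ (sub_zero s))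
    have h3 : ∀ᶠ t in 𝓝[≠] (0 : ℂ), t ^ 2 * f t ≠ 0 := by
      refine (show Tendsto (fun t => t ^ 2 * f t) (𝓝[≠] (0 : ℂ)) (𝓝 1) from ?_).eventually_ne one_ne_zero
      have hs' : Tendsto (fun t : ℂ => s - t) (𝓝[≠] (0 : ℂ)) (𝓝 s) :=
        tendsto_nhdsWithin_of_tendsto_nhds (Continuous.tendsto' (by fun_prop) _ _ (sub_zero s))
      have ht : Tendsto (fun t : ℂ => t ^ 2) (𝓝[≠] (0 : ℂ)) (𝓝 0) :=
        tendsto_nhdsWithin_of_tendsto_nhds (Continuous.tendsto' (by fun_prop) _ _ (by simp))
      have := (tendsto_sq_mul_weierstrassP L).sub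
        (ht.mul ((continuousAt_weierstrassP L hzw).tendsto.comp hs'))
      simpa [hf, mul_sub] using this
    filter_upwards [h1, h2, h3] with t ht1 ht2 ht3
    refine hc t ?_
    rw [hVeq]
    exact ⟨by simpa [hB] using ⟨ht1, ht2⟩, fun h => ht3 (by simp [Set.mem_singleton_iff.1 h])⟩
  have hlim := tendsto_chordX L hzw
  have hcs : c = L.weierstrassP s :=
    tendsto_nhds_unique (tendsto_const_nhds.congr' (hev.mono fun t ht => ht.symm)) hlim
  have := hc z hzV
  simp only [s, add_sub_cancel_left] at this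
  rw [this, hcs]

lemma chordY_eq {z w : ℂ} (hz : z ∉ L.lattice) (hw : w ∉ L.lattice) (hzw : z + w ∉ L.lattice)
    (hne : L.weierstrassP z ≠ L.weierstrassP w) :
    -(chordSlope L z w * (chordX L z w - L.weierstrassP z) + yCoord L z) = yCoord L (z + w) := by
  have hev : ∀ᶠ t in 𝓝 z, chordX L t w = L.weierstrassP (t + w) := by
    have h1 := eventually_notMem_lattice L hz
    have h2 : ∀ᶠ t in 𝓝 z, t + w ∉ L.lattice :=
      ((by fun_prop : Continuous fun t : ℂ => t + w).tendsto z).eventually
        (eventually_notMem_lattice L hzw)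
    have h3 : ∀ᶠ t in 𝓝 z, L.weierstrassP t ≠ L.weierstrassP w :=
      (continuousAt_weierstrassP L hz).eventually_ne hne
    filter_upwards [h1, h2, h3] with t a b c using chordX_eq L a hw b c
  have hl : HasDerivAt (fun t => L.weierstrassP (t + w)) (2 * yCoord L (z + w)) z :=
    (hasDerivAt_weierstrassP L hzw).comp_add_const z w
  have hne' : L.weierstrassP z - L.weierstrassP w ≠ 0 := sub_ne_zero.2 hne
  have hm := ((hasDerivAt_yCoord L hz).sub_const (yCoord L w)).div
    ((hasDerivAt_weierstrassP L hz).sub_const (L.weierstrassP w)) hne'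
  have hr := ((hm.fun_pow 2).sub (hasDerivAt_weierstrassP L hz)).sub_const (L.weierstrassP w)
  have h := (hr.congr_of_eventuallyEq (f₁ := fun t => L.weierstrassP (t + w))
    (hev.mono fun t ht => by simp [← ht, chordX, chordSlope])).unique hl
  have e1 := yCoord_sq L hz
  have e2 := yCoord_sq L hw
  simp only [chordX, chordSlope, Pi.div_apply, Nat.cast_ofNat, Nat.add_one_sub_one, pow_one] at h ⊢
  have hY : yCoord L (z + w) = (yCoord L z - yCoord L w) / (L.weierstrassP z - L.weierstrassP w) *
      (((3 * L.weierstrassP z ^ 2 + -L.g₂ / 4) * (L.weierstrassP z - L.weierstrassP w) -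
        (yCoord L z - yCoord L w) * (2 * yCoord L z)) /
        (L.weierstrassP z - L.weierstrassP w) ^ 2) - yCoord L z := by
    linear_combination (-1 / 2 : ℂ) * h
  rw [hY]
  field_simp
  linear_combination (4 : ℂ) * (yCoord L z - yCoord L w) * (e1 - e2)

variable (hΔ : (latticeCurve L).Δ ≠ 0)

/-- `z ↦ (℘ z, ℘' z / 2)`. -/
def latticePoint (z : ℂ) : (latticeCurve L).toAffine.Point :=
  if hz : z ∈ L.lattice then 0 else
    .some (L.weierstrassP z) (yCoord L z)
      ((Affine.equation_iff_nonsingular_of_Δ_ne_zero hΔ).1 (latticeCurve_equation L hz))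

lemma latticePoint_eq_zero_iff {z : ℂ} : latticePoint L hΔ z = 0 ↔ z ∈ L.lattice := by
  unfold latticePoint
  split_ifs with hz <;> simp [hz]

lemma latticePoint_of_notMem {z : ℂ} (hz : z ∉ L.lattice) :
    ∃ h, latticePoint L hΔ z = .some (L.weierstrassP z) (yCoord L z) h :=
  ⟨_, dif_neg hz⟩

lemma latticePoint_neg (z : ℂ) : latticePoint L hΔ (-z) = -latticePoint L hΔ z := by
  by_cases hz : z ∈ L.lattice
  · simp [latticePoint, hz]
  · obtain ⟨h, e⟩ := latticePoint_of_notMem L hΔ hz
    obtain ⟨h', e'⟩ := latticePoint_of_notMem L hΔ (z := -z) (by simpa using hz)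
    rw [e, e', Affine.Point.neg_some, Affine.Point.some.injEq]
    exact ⟨L.weierstrassP_neg z, by simp [Affine.negY, latticeCurve, yCoord, neg_div]⟩

lemma latticePoint_add_coe (z : ℂ) {l : ℂ} (hl : l ∈ L.lattice) :
    latticePoint L hΔ (z + l) = latticePoint L hΔ z := by
  by_cases hz : z ∈ L.lattice
  · simp [latticePoint, hz, L.lattice.add_mem hz hl]
  · have hzl : z + l ∉ L.lattice := fun h => hz (by simpa using L.lattice.sub_mem h hl)
    obtain ⟨h, e⟩ := latticePoint_of_notMem L hΔ hz
    obtain ⟨h', e'⟩ := latticePoint_of_notMem L hΔ hzl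
    rw [e, e', Affine.Point.some.injEq]
    exact ⟨L.weierstrassP_add_coe z ⟨l, hl⟩,
      by simp [yCoord, L.derivWeierstrassP_add_coe z ⟨l, hl⟩]⟩

lemma latticePoint_add_generic {z w : ℂ} (hz : z ∉ L.lattice) (hw : w ∉ L.lattice)
    (hzw : z + w ∉ L.lattice) (hne : L.weierstrassP z ≠ L.weierstrassP w) :
    latticePoint L hΔ (z + w) = latticePoint L hΔ z + latticePoint L hΔ w := by
  obtain ⟨h1, e1⟩ := latticePoint_of_notMem L hΔ hz
  obtain ⟨h2, e2⟩ := latticePoint_of_notMem L hΔ hw
  obtain ⟨h3, e3⟩ := latticePoint_of_notMem L hΔ hzw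
  rw [e1, e2, e3, Affine.Point.add_of_X_ne hne, Affine.Point.some.injEq]
  have hX : chordX L z w = L.weierstrassP (z + w) := chordX_eq L hz hw hzw hne
  refine ⟨?_, ?_⟩
  · rw [← hX]
    simp [chordX, chordSlope, Affine.addX, Affine.slope_of_X_ne hne, latticeCurve]
  · rw [← chordY_eq L hz hw hzw hne]
    simp [chordX, chordSlope, Affine.addY, Affine.negAddY, Affine.addX, Affine.negY,
      Affine.slope_of_X_ne hne, latticeCurve]

lemma countable_fibre (c : ℂ) :
    {u : ℂ | u ∈ (L.lattice : Set ℂ)ᶜ ∧ L.weierstrassP u - c = 0}.Countable := by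
  refine countable_zeros (fun u hu => (L.analyticOnNhd_weierstrassP u hu).sub analyticAt_const)
    (isPreconnected_compl_countable (countable_lattice L)) ?_
  by_contra! hall
  have ev : ∀ᶠ w in 𝓝[≠] (0 : ℂ), w ^ 2 * L.weierstrassP w = w ^ 2 * c := by
    filter_upwards [eventually_punctured_notMem_lattice L 0] with w hw
    rw [sub_eq_zero.1 (hall w hw)]
  have h := tendsto_nhds_unique ((tendsto_sq_mul_weierstrassP L).congr' ev)
    (tendsto_nhdsWithin_of_tendsto_nhds (Continuous.tendsto' (by fun_prop) (0 : ℂ) 0 (by simp)))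
  exact one_ne_zero h

lemma latticePoint_add (z w : ℂ) :
    latticePoint L hΔ (z + w) = latticePoint L hΔ z + latticePoint L hΔ w := by
  by_cases hz : z ∈ L.lattice
  · rw [add_comm z w, latticePoint_add_coe L hΔ w hz, (latticePoint_eq_zero_iff L hΔ).2 hz,
      zero_add]
  by_cases hw : w ∈ L.lattice
  · rw [latticePoint_add_coe L hΔ z hw, (latticePoint_eq_zero_iff L hΔ).2 hw, add_zero]
  by_cases hzw : z + w ∈ L.lattice
  · have : latticePoint L hΔ w = latticePoint L hΔ (-z) := by
      conv_lhs => rw [show w = -z + (z + w) by ring]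
      exact latticePoint_add_coe L hΔ _ hzw
    rw [this, latticePoint_neg, add_neg_cancel, latticePoint_eq_zero_iff L hΔ |>.2 hzw]
  -- an auxiliary point in general position
  have hΛ := countable_lattice L
  have F := countable_fibre L
  obtain ⟨u, hu⟩ := nonempty_compl_countable
    ((((hΛ.union (countable_shift _ hΛ w)).union (countable_shift _ hΛ (z + w))).union
      (F (L.weierstrassP (z + w)))).union
      ((countable_shift _ (F (L.weierstrassP z)) w).union (F (L.weierstrassP w))))
  simp only [Set.compl_union, Set.mem_inter_iff, Set.mem_compl_iff, Set.mem_ofPred_eq,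
    SetLike.mem_coe, not_and, sub_eq_zero] at hu
  obtain ⟨⟨⟨⟨h1, h2⟩, h3⟩, h4⟩, h5, h6⟩ := hu
  have A := latticePoint_add_generic L hΔ hzw h1 h3 (fun h => h4 h1 h.symm)
  have B := latticePoint_add_generic L hΔ hz h2 (by rwa [← add_assoc]) (fun h => h5 h2 h.symm)
  have C := latticePoint_add_generic L hΔ hw h1 h2 (fun h => h6 h1 h.symm)
  rw [← add_assoc, A, C, ← add_assoc] at B
  exact add_right_cancel B

/-- `ℂ → E(ℂ)` as a homomorphism. -/
def latticePointHom : ℂ →+ (latticeCurve L).toAffine.Point where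
  toFun := latticePoint L hΔ
  map_zero' := (latticePoint_eq_zero_iff L hΔ).2 L.lattice.zero_mem
  map_add' := latticePoint_add L hΔ

@[simp] lemma latticePointHom_apply (z : ℂ) : latticePointHom L hΔ z = latticePoint L hΔ z := rfl

end Fermat.Agent.Mazur.Moduli
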